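import Mathlib

/-!
# Finite extensions with as many embeddings as their degree

For `E / F` finite and an injective family `σ` of embeddings of `E` extending `f : F →+* L`:
there are at most `[E : F]` of them (`card_le_finrank_of_injective`), by linear independence of
characters, and when there are exactly `[E : F]` the characteristic polynomial, norm and trace of
`y` are the product, product and sum over the `σ i y` (`charpoly_lmul_eq_prod`,
`norm_eq_prod_sigma`, `trace_eq_sum_sigma`).
-/

set_option autoImplicit false

noncomputable section

open Polynomial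

namespace FLTAgent.ModularCosets

variable {F E L : Type*} [Field F] [Field E] [Field L] [Algebra F E] [FiniteDimensional F E]
  {ι : Type*} [Fintype ι] (f : F →+* L) (σ : ι → E →+* L)
  (hσ : ∀ i x, σ i (algebraMap F E x) = f x)

include hσ in
theorem linearIndependent_eval (hinj : Function.Injective σ) :
    LinearIndependent L fun (i : ι) (j : Module.Free.ChooseBasisIndex F E) =>
      σ i (Module.Free.chooseBasis F E j) := by
  rw [Fintype.linearIndependent_iff]
  intro c hc
  have hli := (linearIndependent_monoidHom E L).comp (fun i => (σ i : E →* L))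
    (fun i j h => hinj (RingHom.ext fun x => DFunLike.congr_fun h x))
  rw [Fintype.linearIndependent_iff] at hli
  refine hli c ?_
  funext y
  rw [← (Module.Free.chooseBasis F E).sum_repr y]
  simp only [Finset.sum_apply, Pi.smul_apply, smul_eq_mul, Function.comp_apply, Pi.zero_apply,
    MonoidHom.coe_coe, map_sum, Finset.mul_sum]
  rw [Finset.sum_comm]
  refine Finset.sum_eq_zero fun j _ => ?_
  have hj := congrFun hc j
  simp only [Finset.sum_apply, Pi.smul_apply, smul_eq_mul, Pi.zero_apply] at hj
  simp only [Algebra.smul_def, map_mul, hσ, mul_left_comm (c _) (f _), ← Finset.mul_sum, hj,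
    mul_zero]

include hσ in
/-- There are at most `[E : F]` embeddings. -/
theorem card_le_finrank_of_injective (hinj : Function.Injective σ) :
    Fintype.card ι ≤ Module.finrank F E := by
  refine (linearIndependent_eval f σ hσ hinj).fintype_card_le_finrank.trans (le_of_eq ?_)
  rw [Module.finrank_pi, Module.finrank_eq_card_chooseBasisIndex]

include hσ in
/-- The characteristic polynomial of multiplication is the product over the embeddings. -/
theorem charpoly_lmul_eq_prod (hinj : Function.Injective σ)
    (hcard : Fintype.card ι = Module.finrank F E) (y : E) :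
    (Algebra.lmul F E y).charpoly.map f = ∏ i, (X - C (σ i y)) := by
  classical
  let e : Module.Free.ChooseBasisIndex F E ≃ ι := Fintype.equivOfCardEq
    (by rw [hcard, Module.finrank_eq_card_chooseBasisIndex])
  let bs : Module.Basis ι F E := (Module.Free.chooseBasis F E).reindex e
  let S : Matrix ι ι L := Matrix.of fun i j => σ i (bs j)
  have hSu : IsUnit S := by
    rw [← Matrix.linearIndependent_rows_iff_isUnit]
    have h : LinearIndependent L fun i : ι =>
        LinearMap.funLeft L L e.symm (fun j => σ i (Module.Free.chooseBasis F E j)) :=
      (linearIndependent_eval f σ hσ hinj).map' _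
        (LinearMap.ker_eq_bot.mpr (LinearMap.funLeft_injective_of_surjective L L _ e.symm.surjective))
    convert h using 1
    funext i j
    simp [S, bs, LinearMap.funLeft, Matrix.row]
  set M := LinearMap.toMatrix bs bs (Algebra.lmul F E y) with hM
  have key : S * M.map f = Matrix.diagonal (fun i => σ i y) * S := by
    ext i j
    rw [Matrix.diagonal_mul, Matrix.mul_apply]
    simp only [S, Matrix.of_apply, Matrix.map_apply, hM, LinearMap.toMatrix_apply]
    rw [← map_mul, show y * bs j = Algebra.lmul F E y (bs j) from rfl]
    conv_rhs => rw [← bs.sum_repr (Algebra.lmul F E y (bs j)), map_sum]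
    simp only [Algebra.smul_def, map_mul, hσ, mul_comm]
  rw [← LinearMap.charpoly_toMatrix (Algebra.lmul F E y) bs, ← Matrix.charpoly_map]
  obtain ⟨U, hU⟩ := hSu
  rw [← hU] at key
  have hMeq : M.map f
      = (↑U⁻¹ : Matrix ι ι L) * Matrix.diagonal (fun i => σ i y) * (U : Matrix ι ι L) := by
    rw [Matrix.mul_assoc, ← key, Units.inv_mul_cancel_left]
  rw [hMeq, Matrix.charpoly_mul_comm, ← Matrix.mul_assoc, Units.mul_inv, Matrix.one_mul,
    Matrix.charpoly_diagonal]

include hσ in
/-- The norm is the product over the embeddings. -/
theorem norm_eq_prod_sigma (hinj : Function.Injective σ)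
    (hcard : Fintype.card ι = Module.finrank F E) (y : E) :
    f (Algebra.norm F y) = ∏ i, σ i y := by
  have h : f ((Algebra.lmul F E y).charpoly.coeff 0) = ∏ i, -σ i y := by
    rw [← coeff_map, charpoly_lmul_eq_prod f σ hσ hinj hcard y, coeff_zero_eq_eval_zero, eval_prod]
    simp
  rw [Algebra.norm_apply, LinearMap.det_eq_sign_charpoly_coeff, map_mul, map_pow, map_neg,
    map_one, ← hcard, h, Finset.prod_neg, Finset.card_univ, ← mul_assoc, ← mul_pow]
  simp

include hσ in
/-- The trace is the sum over the embeddings. -/
theorem trace_eq_sum_sigma (hinj : Function.Injective σ)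
    (hcard : Fintype.card ι = Module.finrank F E) (y : E) :
    f (Algebra.trace F E y) = ∑ i, σ i y := by
  classical
  have h := congrArg Polynomial.nextCoeff (charpoly_lmul_eq_prod f σ hσ hinj hcard y)
  rw [Polynomial.nextCoeff_map f.injective, Polynomial.prod_X_sub_C_nextCoeff] at h
  set b := Module.Free.chooseBasis F E
  rw [Algebra.trace_apply, LinearMap.trace_eq_matrix_trace F b,
    Matrix.trace_eq_neg_charpoly_nextCoeff, LinearMap.charpoly_toMatrix, map_neg, h, neg_neg]

end FLTAgent.ModularCosets
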