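import Mathlib
import Fermat.Prelude.Def_ModularCurve_X0

/-!
# Upper triangular representatives of `Γ₀(N) \ SL(2, ℤ)` and their number

`exists_hnf` and `hnf_unique` give the Hermite normal form of an integral matrix of positive
determinant. Applied to `diag (N, 1) γ`, it matches the cosets of `Γ₀(N)` with the primitive
matrices `(a b; 0 N / a)`, indexed by `CosetIdx N` (`existsUnique_cosetIdx`). Counting them
multiplicatively gives `card_cosetIdx` and `index_Gamma0`: the index of `Γ₀(N)` is `ψ(N)`;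
`dedekindPsi_mul_prime` computes `ψ(N ℓ)`.
-/

set_option autoImplicit false

noncomputable section

open ModularCurve CongruenceSubgroup Matrix
open scoped MatrixGroups

namespace FLTAgent.ModularCosets

/-! ### Hermite normal form -/

/-- The integral matrix `(a b; 0 D)`. -/
def upperTri (a b D : ℤ) : Matrix (Fin 2) (Fin 2) ℤ := !![a, b; 0, D]

/-- The matrix `(d 0; 0 1)`. -/
def diagOne (d : ℤ) : Matrix (Fin 2) (Fin 2) ℤ := !![d, 0; 0, 1]

theorem det_upperTri (a b D : ℤ) : (upperTri a b D).det = a * D := by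
  simp [upperTri, Matrix.det_fin_two_of]

theorem det_diagOne (d : ℤ) : (diagOne d).det = d := by
  simp [diagOne, Matrix.det_fin_two_of]

/-- Hermite normal form of an integral matrix of positive determinant. -/
theorem exists_hnf (M : Matrix (Fin 2) (Fin 2) ℤ) (n : ℕ) (hn : n ≠ 0) (hdet : M.det = n) :
    ∃ (g : SL(2, ℤ)) (a b D : ℕ), a * D = n ∧ b < D ∧
      M = (g : Matrix (Fin 2) (Fin 2) ℤ) * upperTri a b D := by
  set a : ℕ := Int.gcd (M 0 0) (M 1 0) with ha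
  have hdet' : M 0 0 * M 1 1 - M 0 1 * M 1 0 = n := by rw [← hdet, Matrix.det_fin_two]
  have ha0 : (a : ℤ) ≠ 0 := by
    intro h
    have h' : a = 0 := by exact_mod_cast h
    obtain ⟨h1, h2⟩ := Int.gcd_eq_zero_iff.mp h'
    rw [h1, h2] at hdet'
    simp at hdet'
    exact hn (by exact_mod_cast hdet'.symm)
  obtain ⟨p, hp⟩ : (a : ℤ) ∣ M 0 0 := Int.gcd_dvd_left _ _
  obtain ⟨r, hr⟩ : (a : ℤ) ∣ M 1 0 := Int.gcd_dvd_right _ _
  have hbez : (a : ℤ) = M 0 0 * Int.gcdA (M 0 0) (M 1 0) + M 1 0 * Int.gcdB (M 0 0) (M 1 0) :=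
    Int.gcd_eq_gcd_ab _ _
  set x := Int.gcdA (M 0 0) (M 1 0)
  set y := Int.gcdB (M 0 0) (M 1 0)
  have h1 : p * x + r * y = 1 := by
    apply mul_left_cancel₀ ha0
    linear_combination -hbez + (-x) * hp + (-y) * hr
  set B : ℤ := x * M 0 1 + y * M 1 1 with hB
  set D : ℤ := -r * M 0 1 + p * M 1 1 with hD
  have haD : (a : ℤ) * D = n := by
    rw [hD]; linear_combination hdet' + M 0 1 * hr - M 1 1 * hp
  have hDpos : 0 < D := by
    have : (0 : ℤ) < (a : ℤ) * D := by rw [haD]; omega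
    exact pos_of_mul_pos_right this (Int.natCast_nonneg a)
  have hm0 : 0 ≤ B % D := Int.emod_nonneg _ hDpos.ne'
  have hmlt : B % D < D := Int.emod_lt_of_pos _ hDpos
  refine ⟨⟨!![p, p * (B / D) - y; r, r * (B / D) + x], ?_⟩, a, (B % D).toNat, D.toNat, ?_, ?_, ?_⟩
  · rw [Matrix.det_fin_two_of]
    linear_combination h1
  · zify
    rw [Int.toNat_of_nonneg hDpos.le, haD]
  · omega
  · rw [Int.toNat_of_nonneg hm0, Int.toNat_of_nonneg hDpos.le]
    have hmod : B % D = B - D * (B / D) := by rw [Int.emod_def]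
    ext i j
    fin_cases i <;> fin_cases j <;>
      simp [upperTri, Matrix.mul_apply, Fin.sum_univ_two]
    · linear_combination hp
    · linear_combination (-p) * hmod + (-M 0 1) * h1 + (-p) * hB + y * hD
    · linear_combination hr
    · linear_combination (-r) * hmod + (-M 1 1) * h1 + (-r) * hB + (-x) * hD

/-- Uniqueness of the Hermite normal form. -/
theorem hnf_unique {g g' : SL(2, ℤ)} {a b D a' b' D' : ℕ} (ha : a ≠ 0) (hD : D ≠ 0)
    (hb : b < D) (hb' : b' < D')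
    (h : (g : Matrix (Fin 2) (Fin 2) ℤ) * upperTri a b D
      = (g' : Matrix (Fin 2) (Fin 2) ℤ) * upperTri a' b' D') :
    a = a' ∧ b = b' ∧ D = D' ∧ g = g' := by
  set k : SL(2, ℤ) := g'⁻¹ * g
  have hk : (k : Matrix (Fin 2) (Fin 2) ℤ) * upperTri a b D = upperTri a' b' D' := by
    rw [Matrix.SpecialLinearGroup.coe_mul, Matrix.mul_assoc, h, ← Matrix.mul_assoc,
      ← Matrix.SpecialLinearGroup.coe_mul, inv_mul_cancel, Matrix.SpecialLinearGroup.coe_one,
      Matrix.one_mul]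
  have e00 : (k 0 0 : ℤ) * a = a' := by
    have := congrFun (congrFun hk 0) 0
    simpa [upperTri, Matrix.mul_apply, Fin.sum_univ_two] using this
  have e01 : (k 0 0 : ℤ) * b + k 0 1 * D = b' := by
    have := congrFun (congrFun hk 0) 1
    simpa [upperTri, Matrix.mul_apply, Fin.sum_univ_two] using this
  have e10 : (k 1 0 : ℤ) * a = 0 := by
    have := congrFun (congrFun hk 1) 0
    simpa [upperTri, Matrix.mul_apply, Fin.sum_univ_two] using this
  have e11 : (k 1 0 : ℤ) * b + k 1 1 * D = D' := by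
    have := congrFun (congrFun hk 1) 1
    simpa [upperTri, Matrix.mul_apply, Fin.sum_univ_two] using this
  have k10 : k 1 0 = 0 := (mul_eq_zero.mp e10).resolve_right (by exact_mod_cast ha)
  have hdet : (k 0 0 : ℤ) * k 1 1 = 1 := by
    have h2 : (k : Matrix (Fin 2) (Fin 2) ℤ).det = 1 := k.2
    rw [Matrix.det_fin_two, k10, mul_zero, sub_zero] at h2
    exact h2
  rw [k10, zero_mul, zero_add] at e11
  have hDpos : (0 : ℤ) < D := by omega
  have h11 : k 1 1 = 1 := by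
    rcases Int.eq_one_or_neg_one_of_mul_eq_one' hdet with ⟨_, h11⟩ | ⟨_, h11⟩
    · exact h11
    · exfalso; rw [h11] at e11; omega
  have h00 : k 0 0 = 1 := by rw [h11, mul_one] at hdet; exact hdet
  have hDD : D = D' := by rw [h11, one_mul] at e11; exact_mod_cast e11
  subst hDD
  have haa : a = a' := by rw [h00, one_mul] at e00; exact_mod_cast e00
  have h01 : k 0 1 = 0 := by
    rw [h00, one_mul] at e01
    by_contra hne
    rcases Int.lt_or_gt_of_ne hne with h0 | h0 <;> nlinarith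
  have hbb : b = b' := by rw [h00, h01, one_mul, zero_mul, add_zero] at e01; exact_mod_cast e01
  refine ⟨haa, hbb, rfl, ?_⟩
  have hk1 : k = 1 := by
    ext i j
    fin_cases i <;> fin_cases j <;> simp [h00, h01, k10, h11]
  exact (inv_mul_eq_one.mp hk1).symm

/-! ### The index set -/

/-- The pairs `(a, b)` standing for the primitive matrices `(a b; 0 N / a)`. -/
def cosetReps (N : ℕ) : Finset (ℕ × ℕ) :=
  (N.divisors ×ˢ Finset.range N).filter fun p =>
    p.2 < N / p.1 ∧ Nat.gcd (Nat.gcd p.1 (N / p.1)) p.2 = 1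

/-- Index type of the cosets of `Γ₀(N)`. -/
abbrev CosetIdx (N : ℕ) : Type := ↥(cosetReps N)

theorem mem_cosetReps {N : ℕ} [NeZero N] {p : ℕ × ℕ} : p ∈ cosetReps N ↔
    p.1 ∣ N ∧ p.2 < N / p.1 ∧ Nat.gcd (Nat.gcd p.1 (N / p.1)) p.2 = 1 := by
  simp only [cosetReps, Finset.mem_filter, Finset.mem_product, Nat.mem_divisors,
    Finset.mem_range]
  constructor
  · rintro ⟨⟨⟨h1, -⟩, -⟩, h3, h4⟩
    exact ⟨h1, h3, h4⟩
  · rintro ⟨h1, h3, h4⟩
    exact ⟨⟨⟨h1, NeZero.ne N⟩, lt_of_lt_of_le h3 (Nat.div_le_self _ _)⟩, h3, h4⟩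

namespace CosetIdx

variable {N : ℕ} [NeZero N] (c : CosetIdx N)

/-- The entry `a`. -/
def a : ℕ := c.1.1
/-- The entry `b`. -/
def b : ℕ := c.1.2
/-- The entry `D = N / a`. -/
def D : ℕ := N / c.1.1

theorem a_dvd : c.a ∣ N := (mem_cosetReps.mp c.2).1

theorem b_lt : c.b < c.D := (mem_cosetReps.mp c.2).2.1

theorem gcd_eq : Nat.gcd (Nat.gcd c.a c.D) c.b = 1 := (mem_cosetReps.mp c.2).2.2

theorem D_def : c.D = N / c.a := rfl

theorem a_ne_zero : c.a ≠ 0 := fun h => NeZero.ne N (Nat.eq_zero_of_zero_dvd (h ▸ c.a_dvd))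

theorem a_mul_D : c.a * c.D = N := Nat.mul_div_cancel' c.a_dvd

theorem D_ne_zero : c.D ≠ 0 := by
  intro h
  have := c.b_lt
  omega

theorem D_dvd : c.D ∣ N := Dvd.intro_left _ c.a_mul_D

theorem ext' {c c' : CosetIdx N} (ha : c.a = c'.a) (hb : c.b = c'.b) : c = c' :=
  Subtype.ext (Prod.ext ha hb)

/-- An auxiliary shift making the bottom row `(a, b + D t)` primitive. -/
def shift : ℕ := ∏ p ∈ c.a.primeFactors with ¬ p ∣ c.b, p

theorem coprime_shift : Nat.Coprime c.a (c.b + c.D * c.shift) := by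
  refine Nat.coprime_of_dvd' fun p hp hpa hps => ?_
  exfalso
  have hmem : p ∈ c.a.primeFactors := Nat.mem_primeFactors.mpr ⟨hp, hpa, c.a_ne_zero⟩
  by_cases hb : p ∣ c.b
  · have hpD : p ∣ c.D * c.shift := (Nat.dvd_add_right hb).mp hps
    rcases hp.dvd_mul.mp hpD with h | h
    · have h1 : p ∣ Nat.gcd (Nat.gcd c.a c.D) c.b := Nat.dvd_gcd (Nat.dvd_gcd hpa h) hb
      rw [c.gcd_eq] at h1
      exact hp.one_lt.ne' (Nat.dvd_one.mp h1)
    · obtain ⟨q, hq, hpq⟩ := (hp.prime.dvd_finsetProd_iff _).mp h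
      obtain ⟨hq', hqb⟩ := Finset.mem_filter.mp hq
      have hqp : p = q := (Nat.prime_dvd_prime_iff_eq hp (Nat.mem_primeFactors.mp hq').1).mp hpq
      exact hqb (hqp ▸ hb)
  · have h : p ∣ c.shift := Finset.dvd_prod_of_mem _ (Finset.mem_filter.mpr ⟨hmem, hb⟩)
    exact hb ((Nat.dvd_add_left (dvd_mul_of_dvd_right h _)).mp hps)

/-- A representative in `SL(2, ℤ)` of the coset. -/
def rep : SL(2, ℤ) :=
  ⟨!![Int.gcdB c.a ((c.b + c.D * c.shift : ℕ) : ℤ), -Int.gcdA c.a ((c.b + c.D * c.shift : ℕ) : ℤ);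
    (c.a : ℤ), ((c.b + c.D * c.shift : ℕ) : ℤ)], by
    rw [Matrix.det_fin_two_of]
    have h := Int.gcd_eq_gcd_ab (c.a : ℤ) ((c.b + c.D * c.shift : ℕ) : ℤ)
    rw [Int.gcd_natCast_natCast, c.coprime_shift.gcd_eq_one, Nat.cast_one] at h
    linear_combination -h⟩

/-- The left factor in `diag(N,1) * rep = repLeft * (a b; 0 D)`. -/
def repLeft : SL(2, ℤ) :=
  ⟨!![(c.D : ℤ) * Int.gcdB c.a ((c.b + c.D * c.shift : ℕ) : ℤ),
      -(c.a : ℤ) * Int.gcdA c.a ((c.b + c.D * c.shift : ℕ) : ℤ)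
        - Int.gcdB c.a ((c.b + c.D * c.shift : ℕ) : ℤ) * c.b;
      1, (c.shift : ℤ)], by
    rw [Matrix.det_fin_two_of]
    have h := Int.gcd_eq_gcd_ab (c.a : ℤ) ((c.b + c.D * c.shift : ℕ) : ℤ)
    rw [Int.gcd_natCast_natCast, c.coprime_shift.gcd_eq_one, Nat.cast_one] at h
    push_cast at h ⊢
    linear_combination -h⟩

theorem diag_mul_rep : diagOne N * (c.rep : Matrix (Fin 2) (Fin 2) ℤ)
    = (c.repLeft : Matrix (Fin 2) (Fin 2) ℤ) * upperTri c.a c.b c.D := by
  have hN : (N : ℤ) = c.a * c.D := by exact_mod_cast c.a_mul_D.symm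
  ext i j
  fin_cases i <;> fin_cases j <;>
    simp [diagOne, upperTri, rep, repLeft, Matrix.mul_apply, Fin.sum_univ_two] <;>
    first
      | (rw [hN]; ring)
      | ring

end CosetIdx

/-! ### Cosets -/

theorem mem_Gamma0_iff_conj {N : ℕ} {γ : SL(2, ℤ)} :
    γ ∈ Gamma0 N ↔ (N : ℤ) ∣ γ 1 0 := by
  rw [Gamma0_mem, ZMod.intCast_zmod_eq_zero_iff_dvd]

theorem mem_Gamma0_of_diag_mul {N : ℕ} {γ g : SL(2, ℤ)}
    (h : diagOne N * (γ : Matrix (Fin 2) (Fin 2) ℤ)
      = (g : Matrix (Fin 2) (Fin 2) ℤ) * diagOne N) : γ ∈ Gamma0 N := by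
  rw [mem_Gamma0_iff_conj]
  have h1 := congrFun (congrFun h 1) 0
  simp [diagOne, Matrix.mul_apply, Fin.sum_univ_two] at h1
  exact ⟨g 1 0, by rw [h1, mul_comm]⟩

theorem exists_diag_mul_of_mem_Gamma0 {N : ℕ} {γ : SL(2, ℤ)} (hγ : γ ∈ Gamma0 N) :
    ∃ g : SL(2, ℤ), diagOne N * (γ : Matrix (Fin 2) (Fin 2) ℤ)
      = (g : Matrix (Fin 2) (Fin 2) ℤ) * diagOne N := by
  obtain ⟨k, hk⟩ := mem_Gamma0_iff_conj.mp hγ
  refine ⟨⟨!![γ 0 0, N * γ 0 1; k, γ 1 1], ?_⟩, ?_⟩
  · have h2 : (γ : Matrix (Fin 2) (Fin 2) ℤ).det = 1 := γ.2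
    rw [Matrix.det_fin_two] at h2
    rw [Matrix.det_fin_two_of]
    linear_combination h2 + (γ 0 1 : ℤ) * hk
  · ext i j
    fin_cases i <;> fin_cases j <;>
      simp [diagOne, Matrix.mul_apply, Fin.sum_univ_two] <;>
      first
        | rfl
        | (rw [hk]; ring)
        | ring

/-- Every element of `SL(2, ℤ)` lies in the coset of exactly one representative. -/
theorem existsUnique_cosetIdx {N : ℕ} [NeZero N] (γ : SL(2, ℤ)) :
    ∃! c : CosetIdx N, γ * c.rep⁻¹ ∈ Gamma0 N := by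
  have hdet : (diagOne N * (γ : Matrix (Fin 2) (Fin 2) ℤ)).det = ((N : ℕ) : ℤ) := by
    rw [Matrix.det_mul, det_diagOne, γ.2, mul_one]
  obtain ⟨g, a, b, D, haD, hbD, hM⟩ := exists_hnf _ N (NeZero.ne N) hdet
  have haN : a ∣ N := Dvd.intro _ haD
  have ha0 : a ≠ 0 := fun h => NeZero.ne N (by rw [← haD, h, zero_mul])
  have hD : N / a = D := by rw [← haD, Nat.mul_div_cancel_left _ (Nat.pos_of_ne_zero ha0)]
  have hgcd : Nat.gcd (Nat.gcd a D) b = 1 := by
    set k := Nat.gcd (Nat.gcd a D) b with hk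
    have hka : (k : ℤ) ∣ a :=
      Int.natCast_dvd_natCast.mpr ((Nat.gcd_dvd_left _ _).trans (Nat.gcd_dvd_left _ _))
    have hkD : (k : ℤ) ∣ D :=
      Int.natCast_dvd_natCast.mpr ((Nat.gcd_dvd_left _ _).trans (Nat.gcd_dvd_right _ _))
    have hkb : (k : ℤ) ∣ b := Int.natCast_dvd_natCast.mpr (Nat.gcd_dvd_right _ _)
    have h10 := congrFun (congrFun hM 1) 0
    have h11 := congrFun (congrFun hM 1) 1
    simp [diagOne, upperTri, Matrix.mul_apply, Fin.sum_univ_two] at h10 h11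
    have d10 : (k : ℤ) ∣ γ 1 0 := by rw [h10]; exact dvd_mul_of_dvd_right hka _
    have d11 : (k : ℤ) ∣ γ 1 1 := by
      rw [h11]; exact dvd_add (dvd_mul_of_dvd_right hkb _) (dvd_mul_of_dvd_right hkD _)
    have h2 : (γ : Matrix (Fin 2) (Fin 2) ℤ).det = 1 := γ.2
    rw [Matrix.det_fin_two] at h2
    have : (k : ℤ) ∣ 1 := by
      rw [← h2]; exact dvd_sub (dvd_mul_of_dvd_right d11 _) (dvd_mul_of_dvd_right d10 _)
    exact Nat.dvd_one.mp (by exact_mod_cast this)
  let c : CosetIdx N := ⟨(a, b), mem_cosetReps.mpr ⟨haN, by rw [hD]; exact hbD,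
    by rw [hD]; exact hgcd⟩⟩
  have hca : c.a = a := rfl
  have hcb : c.b = b := rfl
  have hcD : c.D = D := hD
  refine ⟨c, ?_, ?_⟩
  · refine mem_Gamma0_of_diag_mul (g := g * c.repLeft⁻¹) ?_
    have hr := c.diag_mul_rep
    rw [hca, hcb, hcD] at hr
    have hu : upperTri a b D = ((c.repLeft⁻¹ : SL(2, ℤ)) : Matrix (Fin 2) (Fin 2) ℤ)
        * (diagOne N * (c.rep : Matrix (Fin 2) (Fin 2) ℤ)) := by
      rw [hr, ← Matrix.mul_assoc, ← Matrix.SpecialLinearGroup.coe_mul, inv_mul_cancel,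
        Matrix.SpecialLinearGroup.coe_one, Matrix.one_mul]
    rw [Matrix.SpecialLinearGroup.coe_mul, ← Matrix.mul_assoc, hM, hu,
      Matrix.SpecialLinearGroup.coe_mul]
    simp only [Matrix.mul_assoc]
    rw [← Matrix.SpecialLinearGroup.coe_mul c.rep, mul_inv_cancel,
      Matrix.SpecialLinearGroup.coe_one, Matrix.mul_one]
  · intro c' hc'
    obtain ⟨k, hk⟩ := exists_diag_mul_of_mem_Gamma0 hc'
    have key : (g : Matrix (Fin 2) (Fin 2) ℤ) * upperTri a b D
        = ((k * c'.repLeft : SL(2, ℤ)) : Matrix (Fin 2) (Fin 2) ℤ) * upperTri c'.a c'.b c'.D := by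
      rw [← hM, Matrix.SpecialLinearGroup.coe_mul, Matrix.mul_assoc _ _ (upperTri _ _ _),
        ← c'.diag_mul_rep, ← Matrix.mul_assoc, ← hk, Matrix.mul_assoc,
        ← Matrix.SpecialLinearGroup.coe_mul, inv_mul_cancel_right]
    obtain ⟨h1, h2, -, -⟩ := hnf_unique ha0 (by omega) hbD c'.b_lt key
    exact CosetIdx.ext' h1.symm h2.symm

/-! ### Counting -/

/-- The number of admissible `b` for a given `a`. -/
def cosetTerm (N a : ℕ) : ℕ :=
  (N / a / Nat.gcd a (N / a)) * Nat.totient (Nat.gcd a (N / a))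

theorem card_filter_coprime_range {g d : ℕ} (h : g ∣ d) :
    ((Finset.range d).filter fun b => Nat.gcd g b = 1).card = d / g * Nat.totient g := by
  obtain ⟨k, rfl⟩ := h
  rcases eq_or_ne g 0 with rfl | hg
  · simp
  rw [Nat.mul_div_cancel_left _ (Nat.pos_of_ne_zero hg)]
  induction k with
  | zero => simp
  | succ k ih =>
    rw [Finset.range_eq_Ico] at ih ⊢
    rw [← Finset.Ico_union_Ico_eq_Ico (Nat.zero_le (g * k)) (Nat.mul_le_mul_left g k.le_succ),
      Finset.filter_union, Finset.card_union_of_disjoint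
        (Finset.disjoint_filter_filter (Finset.Ico_disjoint_Ico_consecutive _ _ _)), ih,
      Nat.mul_succ, Nat.filter_Ico_card_eq_of_periodic (g * k) g _ (Nat.periodic_coprime g),
      Nat.count_eq_card_filter_range, Nat.totient, Nat.succ_mul]

theorem card_cosetReps (N : ℕ) [NeZero N] :
    (cosetReps N).card = ∑ a ∈ N.divisors, cosetTerm N a := by
  rw [Finset.card_eq_sum_card_fiberwise (f := Prod.fst) (t := N.divisors)
    (fun p hp => Nat.mem_divisors.mpr ⟨(mem_cosetReps.mp hp).1, NeZero.ne N⟩)]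
  refine Finset.sum_congr rfl fun a ha => ?_
  have ha' : a ∣ N := (Nat.mem_divisors.mp ha).1
  rw [cosetTerm, ← card_filter_coprime_range (g := Nat.gcd a (N / a)) (d := N / a)
    (Nat.gcd_dvd_right _ _)]
  refine Finset.card_bij (fun p _ => p.2) (fun p hp => ?_) (fun p hp q hq h => ?_)
    (fun b hb => ⟨(a, b), ?_, rfl⟩)
  · obtain ⟨h1, rfl⟩ := Finset.mem_filter.mp hp
    obtain ⟨-, h2, h3⟩ := mem_cosetReps.mp h1
    exact Finset.mem_filter.mpr ⟨Finset.mem_range.mpr h2, h3⟩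
  · exact Prod.ext ((Finset.mem_filter.mp hp).2.trans (Finset.mem_filter.mp hq).2.symm) h
  · obtain ⟨h1, h2⟩ := Finset.mem_filter.mp hb
    exact Finset.mem_filter.mpr ⟨mem_cosetReps.mpr ⟨ha', Finset.mem_range.mp h1, h2⟩, rfl⟩

theorem sum_divisors_mul_split {m n : ℕ} (hmn : m.Coprime n) (f : ℕ → ℕ) :
    ∑ d ∈ (m * n).divisors, f d
      = ∑ d₁ ∈ m.divisors, ∑ d₂ ∈ n.divisors, f (d₁ * d₂) := by
  rw [hmn.divisors_mul, Finset.sum_map, ← Finset.sum_product']
  exact Finset.sum_attach (m.divisors ×ˢ n.divisors) fun p => f (p.1 * p.2)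

theorem cosetTerm_mul {m n d₁ d₂ : ℕ} (hmn : m.Coprime n) (h1 : d₁ ∣ m) (h2 : d₂ ∣ n) :
    cosetTerm (m * n) (d₁ * d₂) = cosetTerm m d₁ * cosetTerm n d₂ := by
  have he : m * n / (d₁ * d₂) = m / d₁ * (n / d₂) := (Nat.div_mul_div_comm h1 h2).symm
  have e1 : m / d₁ ∣ m := Nat.div_dvd_of_dvd h1
  have e2 : n / d₂ ∣ n := Nat.div_dvd_of_dvd h2
  have hg : Nat.gcd (d₁ * d₂) (m / d₁ * (n / d₂))
      = Nat.gcd d₁ (m / d₁) * Nat.gcd d₂ (n / d₂) := by
    rw [Nat.Coprime.gcd_mul _ ((hmn.coprime_dvd_left e1).coprime_dvd_right e2),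
      Nat.Coprime.gcd_mul_right_cancel _
        ((hmn.symm.coprime_dvd_left h2).coprime_dvd_right e1),
      Nat.Coprime.gcd_mul_left_cancel _
        ((hmn.coprime_dvd_left h1).coprime_dvd_right e2)]
  rw [cosetTerm, cosetTerm, cosetTerm, he, hg, Nat.totient_mul
    ((hmn.coprime_dvd_left ((Nat.gcd_dvd_left _ _).trans h1)).coprime_dvd_right
      ((Nat.gcd_dvd_left _ _).trans h2)),
    ← Nat.div_mul_div_comm (Nat.gcd_dvd_right _ _) (Nat.gcd_dvd_right _ _)]
  ring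

theorem dedekindPsi_eq_sum (N : ℕ) :
    dedekindPsi N = ∑ d ∈ N.divisors, if Squarefree d then N / d else 0 :=
  Finset.sum_filter _ _

theorem dedekindPsi_mul {m n : ℕ} (hmn : m.Coprime n) :
    dedekindPsi (m * n) = dedekindPsi m * dedekindPsi n := by
  simp only [dedekindPsi_eq_sum]
  rw [sum_divisors_mul_split hmn, Finset.sum_mul_sum]
  refine Finset.sum_congr rfl fun d₁ hd₁ => Finset.sum_congr rfl fun d₂ hd₂ => ?_
  have h1 := (Nat.mem_divisors.mp hd₁).1
  have h2 := (Nat.mem_divisors.mp hd₂).1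
  simp only [Nat.squarefree_mul ((hmn.coprime_dvd_left h1).coprime_dvd_right h2)]
  rw [← Nat.div_mul_div_comm h1 h2]
  split_ifs <;> simp_all

theorem dedekindPsi_prime_pow {p : ℕ} (hp : p.Prime) (k : ℕ) :
    dedekindPsi (p ^ (k + 1)) = p ^ (k + 1) + p ^ k := by
  rw [dedekindPsi_eq_sum, Nat.sum_divisors_prime_pow hp]
  rw [Finset.sum_range_succ', Finset.sum_range_succ', Finset.sum_eq_zero]
  · simp [hp.prime.squarefree, pow_succ, Nat.mul_div_cancel _ hp.pos, add_comm]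
  · intro i _
    rw [if_neg]
    rw [Nat.squarefree_pow_iff hp.one_lt.ne' (by omega)]
    omega

theorem cosetTerm_prime_pow {p : ℕ} (hp : p.Prime) {i j : ℕ} :
    cosetTerm (p ^ (i + (j + 1))) (p ^ i)
      = if i = 0 then p ^ (j + 1) else p ^ j * (p - 1) := by
  have h1 : p ^ (i + (j + 1)) / p ^ i = p ^ (j + 1) := by
    rw [Nat.pow_div (by omega) hp.pos, Nat.add_sub_cancel_left]
  rw [cosetTerm, h1]
  split_ifs with hi
  · subst hi; simp
  · obtain ⟨i, rfl⟩ : ∃ i', i = i' + 1 := ⟨i - 1, by omega⟩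
    rcases le_total i j with h | h
    · rw [Nat.gcd_eq_left (pow_dvd_pow p (by omega)), Nat.totient_prime_pow_succ hp,
        Nat.pow_div (by omega) hp.pos, show j + 1 - (i + 1) = j - i by omega, ← mul_assoc,
        ← pow_add, Nat.sub_add_cancel h]
    · rw [Nat.gcd_eq_right (pow_dvd_pow p (by omega)), Nat.totient_prime_pow_succ hp,
        Nat.div_self (pow_pos hp.pos _), one_mul]

theorem cosetTerm_self (n : ℕ) (hn : n ≠ 0) : cosetTerm n n = 1 := by
  simp [cosetTerm, Nat.div_self (Nat.pos_of_ne_zero hn)]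

theorem sum_cosetTerm_prime_pow {p : ℕ} (hp : p.Prime) (k : ℕ) :
    ∑ a ∈ (p ^ (k + 1)).divisors, cosetTerm (p ^ (k + 1)) a = p ^ (k + 1) + p ^ k := by
  rw [Nat.sum_divisors_prime_pow hp]
  have key : ∀ j, j ≤ k →
      (∑ i ∈ Finset.range (j + 1), cosetTerm (p ^ (k + 1)) (p ^ i)) + p ^ (k - j)
        = p ^ (k + 1) + p ^ k := by
    intro j
    induction j with
    | zero =>
      intro _
      have h0 := cosetTerm_prime_pow hp (i := 0) (j := k)
      rw [if_pos rfl, Nat.zero_add] at h0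
      rw [Finset.sum_range_one, h0, Nat.sub_zero]
    | succ j ih =>
      intro hj
      have h1 := cosetTerm_prime_pow hp (i := j + 1) (j := k - (j + 1))
      rw [if_neg (by omega), show j + 1 + (k - (j + 1) + 1) = k + 1 by omega] at h1
      rw [Finset.sum_range_succ, h1, add_assoc]
      have h2 : p ^ (k - (j + 1)) * (p - 1) + p ^ (k - (j + 1)) = p ^ (k - j) := by
        rw [← Nat.mul_succ, Nat.succ_eq_add_one, Nat.sub_add_cancel hp.one_lt.le, ← pow_succ,
          show k - (j + 1) + 1 = k - j by omega]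
      rw [h2]
      exact ih (by omega)
  rw [Finset.sum_range_succ, cosetTerm_self _ (pow_ne_zero _ hp.pos.ne')]
  have := key k le_rfl
  rwa [Nat.sub_self, pow_zero] at this

theorem sum_cosetTerm (N : ℕ) : ∑ a ∈ N.divisors, cosetTerm N a = dedekindPsi N := by
  induction N using Nat.recOnPosPrimePosCoprime with
  | prime_pow p n hp hn =>
    obtain ⟨k, rfl⟩ : ∃ k, n = k + 1 := ⟨n - 1, by omega⟩
    rw [sum_cosetTerm_prime_pow hp, dedekindPsi_prime_pow hp]
  | zero => simp [dedekindPsi]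
  | one => simp [cosetTerm]
  | coprime a b _ _ hab iha ihb =>
    rw [dedekindPsi_mul hab, ← iha, ← ihb, sum_divisors_mul_split hab, Finset.sum_mul_sum]
    exact Finset.sum_congr rfl fun d₁ hd₁ => Finset.sum_congr rfl fun d₂ hd₂ =>
      cosetTerm_mul hab (Nat.mem_divisors.mp hd₁).1 (Nat.mem_divisors.mp hd₂).1

/-- There are `ψ(N)` cosets. -/
theorem card_cosetIdx (N : ℕ) [NeZero N] : Fintype.card (CosetIdx N) = dedekindPsi N := by
  rw [Fintype.card_coe, card_cosetReps, sum_cosetTerm]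

theorem dedekindPsi_pos (N : ℕ) [NeZero N] : 0 < dedekindPsi N := by
  rw [← card_cosetIdx N, Fintype.card_pos_iff]
  obtain ⟨c, -, -⟩ := existsUnique_cosetIdx (N := N) 1
  exact ⟨c⟩

/-- The index of `Γ₀(N)` in `SL(2, ℤ)`. -/
theorem index_Gamma0 (N : ℕ) [NeZero N] : (Gamma0 N).index = dedekindPsi N := by
  rw [← card_cosetIdx N, Subgroup.index, ← Nat.card_eq_fintype_card]
  let f : CosetIdx N → SL(2, ℤ) ⧸ Gamma0 N := fun c => QuotientGroup.mk c.rep⁻¹
  refine (Nat.card_eq_of_bijective f ⟨?_, ?_⟩).symm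
  · intro c c' h
    have h' : c.rep * c'.rep⁻¹ ∈ Gamma0 N := by
      have := QuotientGroup.eq.mp h
      rwa [inv_inv] at this
    obtain ⟨c₀, -, hu⟩ := existsUnique_cosetIdx (N := N) c.rep
    rw [hu c (by simp [(Gamma0 N).one_mem]), hu c' h']
  · intro x
    obtain ⟨γ, rfl⟩ := QuotientGroup.mk_surjective x
    obtain ⟨c, hc, -⟩ := existsUnique_cosetIdx (N := N) γ⁻¹
    refine ⟨c, QuotientGroup.eq.mpr ?_⟩
    rw [inv_inv]
    have h := (Gamma0 N).inv_mem hc
    simpa using h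

/-- `ψ (N ℓ) = ℓ ψ N` when `ℓ ∣ N`, else `(ℓ + 1) ψ N`. -/
theorem dedekindPsi_mul_prime (N : ℕ) [NeZero N] {ℓ : ℕ} (hℓ : ℓ.Prime) :
    dedekindPsi (N * ℓ) = (if ℓ ∣ N then ℓ else ℓ + 1) * dedekindPsi N := by
  obtain ⟨k, m, hm, hN⟩ := Nat.exists_eq_pow_mul_and_not_dvd (NeZero.ne N) ℓ hℓ.ne_one
  have hc : ∀ i, Nat.Coprime (ℓ ^ i) m := fun i =>
    (Nat.Coprime.pow_left i ((Nat.Prime.coprime_iff_not_dvd hℓ).mpr hm))
  subst hN
  have h1 : ℓ ^ k * m * ℓ = ℓ ^ (k + 1) * m := by ring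
  rw [h1, dedekindPsi_mul (hc _), dedekindPsi_mul (hc _), dedekindPsi_prime_pow hℓ, ← mul_assoc]
  congr 1
  cases k with
  | zero => simp [if_neg hm]
  | succ k =>
    rw [if_pos ⟨ℓ ^ k * m, by ring⟩, dedekindPsi_prime_pow hℓ]
    ring

end FLTAgent.ModularCosets
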