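import Mathlib
import Fermat.Agent.Modular.QExp
import Fermat.Agent.Modular.JFun

/-!
# The `j`-function and uniqueness of expansions

Names used throughout `ModularCosets` for facts from `Modular.QExp` and `Modular.JFun`: the
function `jH`, its holomorphy, invariance and expansion `jH_qExp`, and the uniqueness
`hasQExp_inj` of an expansion at infinity.
-/

set_option autoImplicit false

noncomputable section

open UpperHalfPlane Filter Topology ModularCurve
open scoped MatrixGroups

namespace FLTAgent.ModularCosets

open FLTAgent.Modular

theorem hasQExp_inj {h : ℝ} (hh : 0 < h) {f : ℍ → ℂ} {x y : LaurentSeries ℂ}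
    (hx : HasQExp h f x) (hy : HasQExp h f y) : x = y := hx.unique hh hy

/-- The `j`-function. -/
abbrev jH : ℍ → ℂ := jFun

theorem jH_diff : DifferentiableOn ℂ (jH ∘ ofComplex) {z : ℂ | 0 < z.im} := differentiableOn_jFun

theorem jH_smul (γ : SL(2, ℤ)) (z : ℍ) : jH (γ • z) = jH z := jFun_smul γ z

theorem jH_qExp : HasQExp 1 jH (coeffEmb ℂ jq) := hasQExp_jFun

end FLTAgent.ModularCosets
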