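import Mathlib
import Fermat.Prelude.Def_ModularCurve_X0ModL

/-!
# Scaling and twisting of Laurent series

`twist c` is `q ↦ c q`, `qScale R m` is `q ↦ q ^ m`, and `cuspExp ζ N a b D` composes them into the
effect of the substitution `z ↦ (a z + b) / D` on expansions in `q ^ (1 / N)`. The conjugates
`jConj R ζ a b` of `j (N z)` are the images of the series of `j`; their leading terms
`ζ ^ (-a b) q ^ (-a²)` show that they are distinct (`jConj_inj`) over any nontrivial ring with a
primitive `N`-th root of unity.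
-/

set_option autoImplicit false

noncomputable section

open HahnSeries ModularCurve

namespace FLTAgent.ModularCosets

section Twist

variable {R S : Type*} [CommRing R] [CommRing S]

/-- `q ↦ c q` on Laurent series. -/
def twistFun (c : Rˣ) (x : LaurentSeries R) : LaurentSeries R where
  coeff k := ((c ^ k : Rˣ) : R) * x.coeff k
  isPWO_support' := x.isPWO_support'.mono fun k hk => by
    simp only [Function.mem_support, ne_eq] at hk ⊢
    exact fun h => hk (by rw [h, mul_zero])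

theorem twistFun_coeff (c : Rˣ) (x : LaurentSeries R) (k : ℤ) :
    (twistFun c x).coeff k = ((c ^ k : Rˣ) : R) * x.coeff k := rfl

theorem twistFun_mul (c : Rˣ) (x y : LaurentSeries R) :
    twistFun c (x * y) = twistFun c x * twistFun c y := by
  ext k
  have hsupp : ∀ z : LaurentSeries R, (twistFun c z).support = z.support := by
    intro z
    ext i
    simp only [HahnSeries.mem_support, twistFun_coeff, ne_eq]
    rw [Units.mul_right_eq_zero]
  rw [twistFun_coeff, HahnSeries.coeff_mul, HahnSeries.coeff_mul, Finset.mul_sum]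
  refine Finset.sum_congr (by simp only [hsupp]) fun p hp => ?_
  have hk : p.1 + p.2 = k := by
    simp only [Finset.mem_antidiagonal] at hp
    exact hp.2.2
  rw [twistFun_coeff, twistFun_coeff, ← hk, zpow_add, Units.val_mul]
  ring

/-- `q ↦ c q` as a ring endomorphism. -/
def twist (c : Rˣ) : LaurentSeries R →+* LaurentSeries R where
  toFun := twistFun c
  map_one' := by
    ext k
    rw [twistFun_coeff, HahnSeries.coeff_one]
    split_ifs with h
    · subst h; simp
    · simp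
  map_mul' := twistFun_mul c
  map_zero' := by ext k; simp [twistFun_coeff]
  map_add' x y := by ext k; simp [twistFun_coeff, mul_add]

@[simp]
theorem twist_coeff (c : Rˣ) (x : LaurentSeries R) (k : ℤ) :
    (twist c x).coeff k = ((c ^ k : Rˣ) : R) * x.coeff k := rfl

theorem twist_one (x : LaurentSeries R) : twist (1 : Rˣ) x = x := by
  ext k; simp

theorem twist_twist (c d : Rˣ) (x : LaurentSeries R) : twist c (twist d x) = twist (c * d) x := by
  ext k
  rw [twist_coeff, twist_coeff, twist_coeff, mul_zpow, Units.val_mul, mul_assoc]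

theorem twist_C (c : Rˣ) (r : R) : twist c (HahnSeries.C r) = HahnSeries.C r := by
  ext k
  rw [twist_coeff, HahnSeries.C_apply, HahnSeries.coeff_single]
  split_ifs with h
  · subst h; simp
  · simp

theorem twist_injective (c : Rˣ) : Function.Injective (twist c) := fun x y h => by
  rw [← twist_one x, ← twist_one y, ← inv_mul_cancel c, ← twist_twist, ← twist_twist, h]

theorem coeffMap_twist (f : R →+* S) (c : Rˣ) (x : LaurentSeries R) :
    coeffMap f (twist c x) = twist (Units.map f c) (coeffMap f x) := by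
  ext k
  simp [← map_zpow]

theorem twist_single (c : Rˣ) (k : ℤ) (r : R) :
    twist c (HahnSeries.single k r) = HahnSeries.single k (((c ^ k : Rˣ) : R) * r) := by
  ext i
  rw [twist_coeff, HahnSeries.coeff_single, HahnSeries.coeff_single]
  split_ifs with h
  · subst h; rfl
  · simp

variable (R) in
/-- `q ↦ q ^ m`, total in `m`. -/
def qScale (m : ℕ) : LaurentSeries R →+* LaurentSeries R :=
  if h : m = 0 then RingHom.id _ else (have : NeZero m := ⟨h⟩; qExpand R m)

theorem qScale_eq (m : ℕ) [NeZero m] : qScale R m = qExpand R m :=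
  dif_neg (NeZero.ne m)

theorem qScale_coeff_mul {m : ℕ} (hm : m ≠ 0) (x : LaurentSeries R) (k : ℤ) :
    (qScale R m x).coeff ((m : ℤ) * k) = x.coeff k := by
  have : NeZero m := ⟨hm⟩
  rw [qScale_eq, qExpand_coeff_mul]

theorem qScale_coeff_of_not_dvd {m : ℕ} (hm : m ≠ 0) (x : LaurentSeries R) {k : ℤ}
    (hk : ¬ (m : ℤ) ∣ k) : (qScale R m x).coeff k = 0 := by
  have : NeZero m := ⟨hm⟩
  rw [qScale_eq, qExpand_coeff_of_not_dvd m x hk]

theorem qScale_one (x : LaurentSeries R) : qScale R 1 x = x := by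
  rw [qScale_eq, qExpand_one_apply]

theorem qScale_qScale {m n : ℕ} (hm : m ≠ 0) (hn : n ≠ 0) (x : LaurentSeries R) :
    qScale R m (qScale R n x) = qScale R (m * n) x := by
  have : NeZero m := ⟨hm⟩
  have : NeZero n := ⟨hn⟩
  rw [qScale_eq, qScale_eq, qScale_eq, qExpand_qExpand]

theorem qScale_C (m : ℕ) (r : R) : qScale R m (HahnSeries.C r) = HahnSeries.C r := by
  rcases eq_or_ne m 0 with rfl | hm
  · rw [qScale, dif_pos rfl]; rfl
  · have : NeZero m := ⟨hm⟩
    rw [qScale_eq, qExpand_C]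

theorem qScale_injective (m : ℕ) : Function.Injective (qScale R m) := by
  rcases eq_or_ne m 0 with rfl | hm
  · rw [qScale, dif_pos rfl]; exact fun _ _ h => h
  · have : NeZero m := ⟨hm⟩
    rw [qScale_eq]
    exact qExpand_injective m

theorem coeffMap_qScale (f : R →+* S) (m : ℕ) (x : LaurentSeries R) :
    coeffMap f (qScale R m x) = qScale S m (coeffMap f x) := by
  rcases eq_or_ne m 0 with rfl | hm
  · rw [qScale, qScale, dif_pos rfl, dif_pos rfl]; rfl
  · have : NeZero m := ⟨hm⟩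
    rw [qScale_eq, qScale_eq, ModularCurve.coeffMap_qExpand]

theorem twist_qScale (c : Rˣ) {m : ℕ} (hm : m ≠ 0) (x : LaurentSeries R) :
    twist c (qScale R m x) = qScale R m (twist (c ^ m) x) := by
  ext k
  by_cases hk : (m : ℤ) ∣ k
  · obtain ⟨i, rfl⟩ := hk
    rw [twist_coeff, qScale_coeff_mul hm, qScale_coeff_mul hm, twist_coeff, ← zpow_natCast,
      ← zpow_mul]
  · rw [twist_coeff, qScale_coeff_of_not_dvd hm _ hk, qScale_coeff_of_not_dvd hm _ hk, mul_zero]

/-- A series fixed by `q ↦ ζ q`, for `ζ` of exact order `m`, is supported on multiples of `m`. -/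
theorem coeff_eq_zero_of_twist_eq [IsDomain R] {ζ : Rˣ} {m : ℕ}
    (hζ : IsPrimitiveRoot ζ m) {x : LaurentSeries R} (h : twist ζ x = x) {k : ℤ}
    (hk : ¬ (m : ℤ) ∣ k) : x.coeff k = 0 := by
  have h1 := congrArg (fun y : LaurentSeries R => y.coeff k) h
  simp only [twist_coeff] at h1
  by_contra hx
  have h2 : ((ζ ^ k : Rˣ) : R) = 1 := mul_right_cancel₀ hx (by rw [h1, one_mul])
  exact hk ((hζ.zpow_eq_one_iff_dvd k).mp (Units.ext h2))

theorem exists_qScale_eq {m : ℕ} (hm : m ≠ 0) {x : LaurentSeries R}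
    (h : ∀ k : ℤ, ¬ (m : ℤ) ∣ k → x.coeff k = 0) : ∃ y, qScale R m y = x := by
  have hm' : (m : ℤ) ≠ 0 := by exact_mod_cast hm
  refine ⟨⟨fun k => x.coeff ((m : ℤ) * k), ?_⟩, ?_⟩
  · refine Set.IsWF.isPWO ?_
    have hbdd : ∀ k ∈ Function.support (fun k => x.coeff ((m : ℤ) * k)),
        x.order ≤ (m : ℤ) * k := fun k hk => HahnSeries.order_le_of_coeff_ne_zero hk
    refine BddBelow.isWF ⟨min x.order 0, fun k hk => ?_⟩
    have h1 := hbdd k hk
    rcases le_or_gt 0 k with h0 | h0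
    · exact le_trans (min_le_right _ _) h0
    · have : (m : ℤ) * k ≤ k := by
        have : (1 : ℤ) ≤ m := by omega
        nlinarith
      exact le_trans (min_le_left _ _) (h1.trans this)
  · ext k
    by_cases hk : (m : ℤ) ∣ k
    · obtain ⟨i, rfl⟩ := hk
      rw [qScale_coeff_mul hm]
    · rw [qScale_coeff_of_not_dvd hm _ hk, h k hk]

end Twist

section CuspExp

variable {R S : Type*} [CommRing R] [CommRing S]

/-- The series in `u = q ^ (1 / N)` of `F ((a z + b) / D)`, given the series of `F` in `q`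
(for `D ∣ N`, `ζ = exp (2 π i / N)`). -/
def cuspExp (ζ : Rˣ) (N a : ℕ) (b : ℤ) (D : ℕ) : LaurentSeries R →+* LaurentSeries R :=
  (qScale R (a * (N / D))).comp (twist (ζ ^ (b * ((N / D : ℕ) : ℤ))))

theorem cuspExp_apply (ζ : Rˣ) (N a : ℕ) (b : ℤ) (D : ℕ) (x : LaurentSeries R) :
    cuspExp ζ N a b D x = qScale R (a * (N / D)) (twist (ζ ^ (b * ((N / D : ℕ) : ℤ))) x) := rfl

theorem cuspExp_injective (ζ : Rˣ) (N a : ℕ) (b : ℤ) (D : ℕ) :
    Function.Injective (cuspExp ζ N a b D) :=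
  (qScale_injective _).comp (twist_injective _)

theorem cuspExp_C (ζ : Rˣ) (N a : ℕ) (b : ℤ) (D : ℕ) (r : R) :
    cuspExp ζ N a b D (HahnSeries.C r) = HahnSeries.C r := by
  rw [cuspExp_apply, twist_C, qScale_C]

theorem coeffMap_cuspExp (f : R →+* S) (ζ : Rˣ) (N a : ℕ) (b : ℤ) (D : ℕ) (x : LaurentSeries R) :
    coeffMap f (cuspExp ζ N a b D x) = cuspExp (Units.map f ζ) N a b D (coeffMap f x) := by
  rw [cuspExp_apply, cuspExp_apply, coeffMap_qScale, coeffMap_twist, map_zpow]

theorem div_pos_of_mul_eq {N a D : ℕ} (hN : N ≠ 0) (h : D ∣ N) (ha : a ≠ 0) :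
    a * (N / D) ≠ 0 :=
  Nat.mul_ne_zero ha (Nat.div_pos (Nat.le_of_dvd (Nat.pos_of_ne_zero hN) h)
    (Nat.pos_of_dvd_of_pos h (Nat.pos_of_ne_zero hN))).ne'

/-- The series of `j ((a z + b) / (N / a))` in `q ^ (1 / N)`. -/
def jConj (R : Type*) [CommRing R] (ζ : Rˣ) (a b : ℕ) : LaurentSeries R :=
  qScale R (a * a) (twist (ζ ^ ((a * b : ℕ) : ℤ)) (jqModC R))

theorem jConj_eq_cuspExp (ζ : Rˣ) {N a : ℕ} (hN : N ≠ 0) (ha : a ∣ N) (b : ℕ) :
    jConj R ζ a b = cuspExp ζ N a b (N / a) (jqModC R) := by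
  rw [cuspExp_apply, Nat.div_div_self ha hN, jConj, Nat.mul_comm a b, Nat.cast_mul]

theorem coeffMap_jConj (f : R →+* S) (ζ : Rˣ) (a b : ℕ) :
    coeffMap f (jConj R ζ a b) = jConj S (Units.map f ζ) a b := by
  rw [jConj, coeffMap_qScale, coeffMap_twist, coeffMap_jqModC, map_zpow, jConj]

theorem jConj_coeff_neg_sq (ζ : Rˣ) {a : ℕ} (ha : a ≠ 0) (b : ℕ) :
    (jConj R ζ a b).coeff (-((a * a : ℕ) : ℤ)) = ((ζ ^ (-((a * b : ℕ) : ℤ)) : Rˣ) : R) := by
  rw [jConj, show -((a * a : ℕ) : ℤ) = ((a * a : ℕ) : ℤ) * (-1) by ring,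
    qScale_coeff_mul (Nat.mul_ne_zero ha ha), twist_coeff, coeff_jqModC_neg_one, mul_one,
    ← zpow_mul]
  congr 2
  ring

theorem jConj_coeff_of_lt (ζ : Rˣ) {a : ℕ} (ha : a ≠ 0) (b : ℕ) {k : ℤ}
    (hk : k < -((a * a : ℕ) : ℤ)) : (jConj R ζ a b).coeff k = 0 := by
  by_cases hdvd : ((a * a : ℕ) : ℤ) ∣ k
  · obtain ⟨i, rfl⟩ := hdvd
    rw [jConj, qScale_coeff_mul (Nat.mul_ne_zero ha ha), twist_coeff,
      coeff_jqModC_of_lt R (by
        have : (0 : ℤ) < ((a * a : ℕ) : ℤ) := by
          exact_mod_cast Nat.pos_of_ne_zero (Nat.mul_ne_zero ha ha)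
        nlinarith), mul_zero]
  · rw [jConj, qScale_coeff_of_not_dvd (Nat.mul_ne_zero ha ha) _ hdvd]

theorem jConj_order [Nontrivial R] (ζ : Rˣ) {a : ℕ} (ha : a ≠ 0) (b : ℕ) :
    (jConj R ζ a b).order = -((a * a : ℕ) : ℤ) := by
  have h0 : (jConj R ζ a b).coeff (-((a * a : ℕ) : ℤ)) ≠ 0 := by
    rw [jConj_coeff_neg_sq ζ ha]
    exact Units.ne_zero _
  refine le_antisymm (HahnSeries.order_le_of_coeff_ne_zero h0) ?_
  by_contra hlt
  push Not at hlt
  have hne : jConj R ζ a b ≠ 0 := HahnSeries.ne_zero_of_coeff_ne_zero h0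
  have := HahnSeries.leadingCoeff_ne_zero.mpr hne
  rw [HahnSeries.leadingCoeff_eq, jConj_coeff_of_lt ζ ha b hlt] at this
  exact this rfl

/-- Distinctness of the conjugates of `j (N z)`, in any characteristic prime to `N`. -/
theorem jConj_inj [Nontrivial R] {ζ : Rˣ} {N : ℕ} (hN : N ≠ 0) (hζ : IsPrimitiveRoot ζ N)
    {a a' b b' : ℕ} (ha : a ∣ N) (ha' : a' ∣ N) (hb : b < N / a) (hb' : b' < N / a')
    (h : jConj R ζ a b = jConj R ζ a' b') : a = a' ∧ b = b' := by
  have h0 : a ≠ 0 := fun e => hN (Nat.eq_zero_of_zero_dvd (e ▸ ha))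
  have h0' : a' ≠ 0 := fun e => hN (Nat.eq_zero_of_zero_dvd (e ▸ ha'))
  have ho := congrArg HahnSeries.order h
  rw [jConj_order ζ h0, jConj_order ζ h0'] at ho
  have haa : a = a' := by
    have : a * a = a' * a' := by exact_mod_cast neg_injective ho
    exact Nat.mul_self_inj.mp this
  subst haa
  refine ⟨rfl, ?_⟩
  have hc := congrArg (fun y : LaurentSeries R => y.coeff (-((a * a : ℕ) : ℤ))) h
  simp only [jConj_coeff_neg_sq ζ h0] at hc
  have hc' := Units.ext hc
  rw [zpow_neg, zpow_neg, inv_inj, zpow_natCast, zpow_natCast] at hc'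
  have hlt : ∀ i, i < N / a → a * i < N := fun i hi =>
    lt_of_lt_of_eq (Nat.mul_lt_mul_of_pos_left hi (Nat.pos_of_ne_zero h0)) (Nat.mul_div_cancel' ha)
  exact Nat.eq_of_mul_eq_mul_left (Nat.pos_of_ne_zero h0)
    (hζ.pow_inj (hlt b hb) (hlt b' hb') hc')

end CuspExp

end FLTAgent.ModularCosets
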