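import Mathlib
import Fermat.Agent.ModularCosets.Series
import Fermat.Agent.ModularCosets.Input

/-!
# Holomorphic functions with an expansion at infinity

`holPairs h` is the `ℂ`-algebra of pairs (holomorphic function on `ℍ`, expansion in
`exp (2 π i z / h)`); an expansion determines its function (`eq_of_hasQExp`).
`hasQExp_triSmul` and `triPair_mem`: composing with `z ↦ (a z + b) / D` acts on expansions as
`cuspExp`.
-/

set_option autoImplicit false

noncomputable section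

open UpperHalfPlane Filter Topology ModularCurve
open scoped MatrixGroups

namespace FLTAgent.ModularCosets

open FLTAgent.Modular

theorem algebraMap_eq_HC {K : Type*} [Field K] (c : K) :
    algebraMap K (LaurentSeries K) c = HahnSeries.C c :=
  algebraMap_laurentSeries_eq_single K c

theorem hasQExp_C (h : ℝ) (c : ℂ) : HasQExp h (fun _ => c) (HahnSeries.C c) := by
  rw [← algebraMap_eq_HC]
  exact hasQExp_const h c

/-- Pairs of a holomorphic function on `ℍ` and its expansion in `exp (2πiz/h)`. -/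
def holPairs (h : ℝ) (hh : 0 < h) : Subalgebra ℂ ((ℍ → ℂ) × LaurentSeries ℂ) where
  carrier := {p | DifferentiableOn ℂ (p.1 ∘ ofComplex) {z : ℂ | 0 < z.im} ∧ HasQExp h p.1 p.2}
  mul_mem' hp hq := ⟨hp.1.mul hq.1, hp.2.mul hq.2⟩
  add_mem' hp hq := ⟨hp.1.add hq.1, hp.2.add hq.2⟩
  algebraMap_mem' c := by
    refine ⟨differentiableOn_const (c := c), ?_⟩
    rw [show (algebraMap ℂ ((ℍ → ℂ) × LaurentSeries ℂ) c).2 = HahnSeries.C c from
      algebraMap_eq_HC c]
    exact hasQExp_C h c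

theorem mem_holPairs {h : ℝ} {hh : 0 < h} {p : (ℍ → ℂ) × LaurentSeries ℂ} :
    p ∈ holPairs h hh ↔
      DifferentiableOn ℂ (p.1 ∘ ofComplex) {z : ℂ | 0 < z.im} ∧ HasQExp h p.1 p.2 := Iff.rfl

/-- The expansion determines the function. -/
theorem eq_zero_of_hasQExp_zero {h : ℝ} {f : ℍ → ℂ}
    (hd : DifferentiableOn ℂ (f ∘ ofComplex) {z : ℂ | 0 < z.im}) (hq : HasQExp h f 0) :
    f = 0 := by
  obtain ⟨C, hC⟩ := hq
  have hU : IsOpen {z : ℂ | 0 < z.im} := isOpen_lt continuous_const Complex.continuous_im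
  have hcon : IsPreconnected {z : ℂ | 0 < z.im} :=
    (convex_halfSpace_im_gt 0).isPreconnected
  have hpos : 0 < (max C 0 + 1) := by
    have := le_max_right C 0; linarith
  set z₀ : ℂ := ⟨0, max C 0 + 1⟩ with hz₀
  have hev : (f ∘ ofComplex) =ᶠ[𝓝 z₀] 0 := by
    have hW : {z : ℂ | max C 0 < z.im} ∈ 𝓝 z₀ :=
      (isOpen_lt continuous_const Complex.continuous_im).mem_nhds (by simp only [Set.mem_ofPred_eq, hz₀]; linarith)
    refine Filter.mem_of_superset hW fun z hz => ?_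
    have hz' : 0 < z.im := lt_of_le_of_lt (le_max_right C 0) hz
    have h0 : f ⟨z, hz'⟩ = 0 := by
      refine (hC ⟨z, hz'⟩ (lt_of_le_of_lt (le_max_left C 0) hz)).unique ?_
      simp [HahnSeries.coeff_zero, hasSum_zero]
    simpa [Function.comp_apply, ofComplex_apply_of_im_pos hz'] using h0
  have := (hd.analyticOnNhd hU).eqOn_zero_of_preconnected_of_eventuallyEq_zero hcon
    (show z₀ ∈ {z : ℂ | 0 < z.im} by simpa [hz₀] using hpos) hev
  funext z
  simpa [Function.comp_apply, ofComplex_apply] using this z.im_pos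

theorem eq_of_hasQExp {h : ℝ} {hh : 0 < h} {p q : (ℍ → ℂ) × LaurentSeries ℂ}
    (hp : p ∈ holPairs h hh) (hq : q ∈ holPairs h hh) (he : p.2 = q.2) : p.1 = q.1 := by
  have h2 := mem_holPairs.mp ((holPairs h hh).sub_mem hp hq)
  rw [Prod.snd_sub, he, sub_self, Prod.fst_sub] at h2
  exact sub_eq_zero.mp (eq_zero_of_hasQExp_zero h2.1 h2.2)

/-- `z ↦ (a z + b) / D` on `ℍ`, for `a, D > 0`. -/
def triSmul (a : ℕ) (b : ℤ) (D : ℕ) [NeZero a] [NeZero D] (z : ℍ) : ℍ :=
  ⟨((a : ℂ) * z + b) / D, by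
    rw [Complex.div_natCast_im]
    have ha : (0 : ℝ) < a := Nat.cast_pos.mpr (Nat.pos_of_ne_zero (NeZero.ne a))
    have hD : (0 : ℝ) < D := Nat.cast_pos.mpr (Nat.pos_of_ne_zero (NeZero.ne D))
    simp only [Complex.add_im, Complex.mul_im, Complex.natCast_re, Complex.natCast_im,
      Complex.intCast_im, zero_mul, add_zero]
    exact div_pos (mul_pos ha z.im_pos) hD⟩

theorem coe_triSmul (a : ℕ) (b : ℤ) (D : ℕ) [NeZero a] [NeZero D] (z : ℍ) :
    (triSmul a b D z : ℂ) = ((a : ℂ) * z + b) / D := rfl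

theorem im_triSmul (a : ℕ) (b : ℤ) (D : ℕ) [NeZero a] [NeZero D] (z : ℍ) :
    (triSmul a b D z).im = a * z.im / D := by
  show (((a : ℂ) * z + b) / D).im = _
  simp [Complex.div_natCast_im]

theorem diff_comp_triSmul {f : ℍ → ℂ}
    (hf : DifferentiableOn ℂ (f ∘ ofComplex) {z : ℂ | 0 < z.im})
    (a : ℕ) (b : ℤ) (D : ℕ) [NeZero a] [NeZero D] :
    DifferentiableOn ℂ ((fun z => f (triSmul a b D z)) ∘ ofComplex) {z : ℂ | 0 < z.im} := by
  refine DifferentiableOn.congr (f := (f ∘ ofComplex) ∘ fun z : ℂ => ((a : ℂ) * z + b) / D)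
    (hf.comp (by fun_prop) ?_) ?_
  · intro z hz
    exact (triSmul a b D ⟨z, hz⟩).im_pos
  · intro z hz
    simp only [Function.comp_apply]
    congr 1
    rw [ofComplex_apply_of_im_pos hz]
    exact (ofComplex_apply (triSmul a b D ⟨z, hz⟩)).symm

/-- `exp (2 π i / N)` as a unit. -/
def zetaU (N : ℕ) : ℂˣ := Units.mk0 (Complex.exp (2 * Real.pi * Complex.I / N)) (Complex.exp_ne_zero _)

theorem zetaU_primitive (N : ℕ) [NeZero N] : IsPrimitiveRoot (zetaU N) N :=
  IsPrimitiveRoot.coe_units_iff.mp (Complex.isPrimitiveRoot_exp N (NeZero.ne N))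

/-- Substitution of an upper triangular matrix in an expansion. -/
theorem hasQExp_triSmul {f : ℍ → ℂ} {x : LaurentSeries ℂ} (hf : HasQExp 1 f x)
    (N a : ℕ) (b : ℤ) (D : ℕ) [NeZero N] [NeZero a] [NeZero D] (hD : D ∣ N) :
    HasQExp (N : ℝ) (fun z => f (triSmul a b D z)) (cuspExp (zetaU N) N a b D x) := by
  obtain ⟨C, hC⟩ := hf
  refine ⟨C * D / a, fun z hz => ?_⟩
  have ha : (0 : ℝ) < a := Nat.cast_pos.mpr (Nat.pos_of_ne_zero (NeZero.ne a))
  have hDpos : (0 : ℝ) < D := Nat.cast_pos.mpr (Nat.pos_of_ne_zero (NeZero.ne D))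
  have him : C < (triSmul a b D z).im := by
    rw [im_triSmul, lt_div_iff₀ hDpos, mul_comm (a : ℝ)]
    exact (div_lt_iff₀ ha).mp hz
  have hs := hC _ him
  set e : ℕ := N / D with he
  have hNe : N = D * e := (Nat.mul_div_cancel' hD).symm
  have hm : a * e ≠ 0 := div_pos_of_mul_eq (NeZero.ne N) hD (NeZero.ne a)
  have hmz : ((a * e : ℕ) : ℤ) ≠ 0 := by exact_mod_cast hm
  rw [cuspExp_apply, ← (mul_right_injective₀ hmz).hasSum_iff (f := fun k : ℤ =>
    (qScale ℂ (a * e) (twist (zetaU N ^ (b * (e : ℤ))) x)).coeff k * qPow N k z)]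
  · convert hs using 1
    funext k
    simp only [Function.comp_apply]
    rw [qScale_coeff_mul hm, twist_coeff, mul_assoc, mul_left_comm]
    rw [← zpow_mul, Units.val_zpow_eq_zpow_val, zetaU, Units.val_mk0, ← Complex.exp_int_mul, qPow,
      qPow, ← Complex.exp_add, coe_triSmul]
    congr 2
    have hD' : (D : ℂ) ≠ 0 := by exact_mod_cast NeZero.ne D
    have he' : (e : ℂ) ≠ 0 := by
      have := (Nat.mul_ne_zero_iff.mp hm).2
      exact_mod_cast this
    rw [show (N : ℂ) = D * e by exact_mod_cast hNe]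
    push_cast [hNe]
    field_simp
    ring
  · intro k hk
    rw [qScale_coeff_of_not_dvd hm _ (fun ⟨i, hi⟩ => hk ⟨i, hi.symm⟩), zero_mul]

theorem triPair_mem {f : ℍ → ℂ} {x : LaurentSeries ℂ}
    (hf : DifferentiableOn ℂ (f ∘ ofComplex) {z : ℂ | 0 < z.im}) (hq : HasQExp 1 f x)
    (N a : ℕ) (b : ℤ) (D : ℕ) [NeZero N] [NeZero a] [NeZero D] (hD : D ∣ N) (hN : 0 < (N : ℝ)) :
    ((fun z => f (triSmul a b D z)), cuspExp (zetaU N) N a b D x) ∈ holPairs (N : ℝ) hN :=
  ⟨diff_comp_triSmul hf a b D, hasQExp_triSmul hq N a b D hD⟩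

end FLTAgent.ModularCosets
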