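import Mathlib
import Fermat.Agent.ModularCosets.Holo
import Fermat.Agent.ModularCosets.CosetIndex

/-!
# Transfer of polynomial relations to every cusp

For `γ ∈ SL(2, ℤ)` and `d ∣ N`, `jSer N γ d` is the expansion of `z ↦ j (d γ z)` in
`exp (2 π i z / N)`, computed from a Hermite decomposition of `diag (d, 1) γ`. Since an expansion
determines its function, a polynomial in the `j (d z)` vanishes in the expansion at one cusp if
and only if it does at every cusp (`serEval_eq_zero_iff`); left translation by `Γ₀(N)` changes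
nothing (`jSer_mul_of_mem`).
-/

set_option autoImplicit false

noncomputable section

open UpperHalfPlane Filter Topology ModularCurve CongruenceSubgroup
open scoped MatrixGroups

namespace FLTAgent.ModularCosets

open FLTAgent.Modular

theorem coeffEmb_jq_eq (L : Type*) [Field L] [Algebra ℚ L] : coeffEmb L jq = jqModC L := by
  rw [coeffEmb, ← jqModC_rat, coeffMap_jqModC]

theorem jH_qExpC : HasQExp 1 jH (jqModC ℂ) := by
  rw [← coeffEmb_jq_eq]; exact jH_qExp

/-- The divisors of `N`. -/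
abbrev DivIdx (N : ℕ) : Type := ↥N.divisors

instance (N : ℕ) (d : DivIdx N) : NeZero (d : ℕ) :=
  ⟨(Nat.pos_of_mem_divisors d.2).ne'⟩

theorem DivIdx.dvd {N : ℕ} (d : DivIdx N) : (d : ℕ) ∣ N := (Nat.mem_divisors.mp d.2).1

theorem nat_pos_real (N : ℕ) [NeZero N] : 0 < (N : ℝ) :=
  Nat.cast_pos.mpr (Nat.pos_of_ne_zero (NeZero.ne N))

/-- A decomposition `(d 0; 0 1) γ = g (a b; 0 D)`. -/
structure TriData (d : ℕ) (γ : SL(2, ℤ)) where
  /-- left factor -/
  g : SL(2, ℤ)
  /-- upper left entry -/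
  a : ℕ
  /-- upper right entry -/
  b : ℕ
  /-- lower right entry -/
  D : ℕ
  mul_eq : a * D = d
  b_lt : b < D
  eq : diagOne d * (γ : Matrix (Fin 2) (Fin 2) ℤ)
    = (g : Matrix (Fin 2) (Fin 2) ℤ) * upperTri a b D

namespace TriData

variable {d : ℕ} [NeZero d] {γ : SL(2, ℤ)}

omit [NeZero d] in
theorem D_ne (t : TriData d γ) : t.D ≠ 0 := by
  have := t.b_lt; omega

theorem a_ne (t : TriData d γ) : t.a ≠ 0 := fun h => NeZero.ne d (by rw [← t.mul_eq, h, zero_mul])

omit [NeZero d] in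
theorem D_dvd (t : TriData d γ) : t.D ∣ d := Dvd.intro_left _ t.mul_eq

instance (t : TriData d γ) : NeZero t.a := ⟨t.a_ne⟩

instance (t : TriData d γ) : NeZero t.D := ⟨t.D_ne⟩

theorem unique (t t' : TriData d γ) : t.a = t'.a ∧ t.b = t'.b ∧ t.D = t'.D :=
  have h := hnf_unique t.a_ne t.D_ne t.b_lt t'.b_lt (t.eq.symm.trans t'.eq)
  ⟨h.1, h.2.1, h.2.2.1⟩

end TriData

theorem nonempty_triData (d : ℕ) [NeZero d] (γ : SL(2, ℤ)) : Nonempty (TriData d γ) := by
  obtain ⟨g, a, b, D, h1, h2, h3⟩ := exists_hnf (diagOne d * (γ : Matrix (Fin 2) (Fin 2) ℤ)) d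
    (NeZero.ne d) (by rw [Matrix.det_mul, det_diagOne, γ.2, mul_one])
  exact ⟨⟨g, a, b, D, h1, h2, h3⟩⟩

/-- A chosen decomposition. -/
def triData (d : ℕ) [NeZero d] (γ : SL(2, ℤ)) : TriData d γ := (nonempty_triData d γ).some

/-- `j (d γ z) = j ((a z + b) / D)`. -/
theorem jH_diag_smul {d : ℕ} [NeZero d] {γ : SL(2, ℤ)} (t : TriData d γ) (z : ℍ) :
    jH (triSmul d 0 1 (γ • z)) = jH (triSmul t.a t.b t.D z) := by
  suffices h : triSmul d 0 1 (γ • z) = t.g • triSmul t.a t.b t.D z by rw [h, jH_smul]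
  have e00 := congrFun (congrFun t.eq 0) 0
  have e01 := congrFun (congrFun t.eq 0) 1
  have e10 := congrFun (congrFun t.eq 1) 0
  have e11 := congrFun (congrFun t.eq 1) 1
  simp [diagOne, upperTri, Matrix.mul_apply, Fin.sum_univ_two] at e00 e01 e10 e11
  have c00 := congrArg (Int.cast : ℤ → ℂ) e00
  have c01 := congrArg (Int.cast : ℤ → ℂ) e01
  have c10 := congrArg (Int.cast : ℤ → ℂ) e10
  have c11 := congrArg (Int.cast : ℤ → ℂ) e11
  push_cast at c00 c01 c10 c11
  have hD : (t.D : ℂ) ≠ 0 := by exact_mod_cast t.D_ne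
  refine UpperHalfPlane.ext ?_
  rw [coe_triSmul, coe_specialLinearGroup_apply, coe_specialLinearGroup_apply, coe_triSmul]
  simp only [algebraMap_int_eq, eq_intCast, Complex.ofReal_intCast, Nat.cast_one, div_one,
    Int.cast_zero, add_zero, Int.cast_natCast]
  have hcancel : ∀ G00 G01 G10 G11 w : ℂ,
      (G00 * (w / (t.D : ℂ)) + G01) / (G10 * (w / (t.D : ℂ)) + G11)
        = (G00 * w + G01 * t.D) / (G10 * w + G11 * t.D) := fun G00 G01 G10 G11 w => by
    rw [mul_div_assoc', mul_div_assoc', div_add' _ _ _ hD, div_add' _ _ _ hD,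
      div_div_div_cancel_right₀ hD]
  rw [mul_div_assoc']
  refine Eq.trans ?_ (hcancel _ _ _ _ _).symm
  congr 1
  · linear_combination (z : ℂ) * c00 + c01
  · linear_combination (z : ℂ) * c10 + c11

/-! ### The three evaluations -/

variable (N : ℕ) [NeZero N]

/-- `z ↦ j (d γ z)`. -/
def jFn (γ : SL(2, ℤ)) (d : DivIdx N) : ℍ → ℂ := fun z => jH (triSmul d 0 1 (γ • z))

/-- The series of `z ↦ j (d γ z)` in `exp (2 π i z / N)`. -/
def jSer (γ : SL(2, ℤ)) (d : DivIdx N) : LaurentSeries ℂ :=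
  cuspExp (zetaU N) N (triData (d : ℕ) γ).a (triData (d : ℕ) γ).b (triData (d : ℕ) γ).D (jqModC ℂ)

theorem jSer_eq (γ : SL(2, ℤ)) (d : DivIdx N) (t : TriData (d : ℕ) γ) :
    jSer N γ d = cuspExp (zetaU N) N t.a t.b t.D (jqModC ℂ) := by
  obtain ⟨h1, h2, h3⟩ := t.unique (triData (d : ℕ) γ)
  rw [jSer, h1, h2, h3]

theorem jPair_mem (γ : SL(2, ℤ)) (d : DivIdx N) :
    (jFn N γ d, jSer N γ d) ∈ holPairs (N : ℝ) (nat_pos_real N) := by
  set t := triData (d : ℕ) γ with ht
  have h : jFn N γ d = fun z => jH (triSmul t.a t.b t.D z) := funext fun z => jH_diag_smul t z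
  rw [h, jSer_eq N γ d t]
  exact triPair_mem jH_diff jH_qExpC N t.a t.b t.D (t.D_dvd.trans d.dvd) _

/-- Evaluation of a polynomial at the functions `j (d γ z)`. -/
def funEval (γ : SL(2, ℤ)) : MvPolynomial (DivIdx N) ℂ →ₐ[ℂ] (ℍ → ℂ) :=
  MvPolynomial.aeval (jFn N γ)

/-- Evaluation of a polynomial at the series of `j (d γ z)`. -/
def serEval (γ : SL(2, ℤ)) : MvPolynomial (DivIdx N) ℂ →ₐ[ℂ] LaurentSeries ℂ :=
  MvPolynomial.aeval (jSer N γ)

variable {N}

theorem evalPair_mem (γ : SL(2, ℤ)) (P : MvPolynomial (DivIdx N) ℂ) :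
    (funEval N γ P, serEval N γ P) ∈ holPairs (N : ℝ) (nat_pos_real N) := by
  induction P using MvPolynomial.induction_on with
  | C c =>
    have h := (holPairs (N : ℝ) (nat_pos_real N)).algebraMap_mem c
    simpa [funEval, serEval, MvPolynomial.aeval_C] using h
  | add P Q hP hQ => simpa using (holPairs (N : ℝ) (nat_pos_real N)).add_mem hP hQ
  | mul_X P d hP =>
    simpa [funEval, serEval, map_mul, MvPolynomial.aeval_X] using
      (holPairs (N : ℝ) (nat_pos_real N)).mul_mem hP (jPair_mem N γ d)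

theorem funEval_diff (γ : SL(2, ℤ)) (P : MvPolynomial (DivIdx N) ℂ) :
    DifferentiableOn ℂ (funEval N γ P ∘ ofComplex) {z : ℂ | 0 < z.im} :=
  (mem_holPairs.mp (evalPair_mem γ P)).1

theorem funEval_qExp (γ : SL(2, ℤ)) (P : MvPolynomial (DivIdx N) ℂ) :
    HasQExp (N : ℝ) (funEval N γ P) (serEval N γ P) :=
  (mem_holPairs.mp (evalPair_mem γ P)).2

theorem funEval_apply (γ : SL(2, ℤ)) (P : MvPolynomial (DivIdx N) ℂ) (z : ℍ) :
    funEval N γ P z = MvPolynomial.eval (fun d => jFn N γ d z) P := by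
  induction P using MvPolynomial.induction_on with
  | C c => simp [funEval, Pi.algebraMap_apply]
  | add P Q hP hQ => simp [hP, hQ]
  | mul_X P d hP => simp [funEval, MvPolynomial.aeval_X, ← hP]

theorem funEval_smul (γ γ' : SL(2, ℤ)) (P : MvPolynomial (DivIdx N) ℂ) (z : ℍ) :
    funEval N γ P (γ' • z) = funEval N (γ * γ') P z := by
  simp only [funEval_apply, jFn, mul_smul]

/-- A relation holds at the cusp of `γ` if and only if it holds at infinity. -/
theorem serEval_eq_zero_iff (γ : SL(2, ℤ)) (P : MvPolynomial (DivIdx N) ℂ) :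
    serEval N γ P = 0 ↔ serEval N 1 P = 0 := by
  have key : ∀ δ : SL(2, ℤ), serEval N δ P = 0 ↔ funEval N 1 P = 0 := by
    intro δ
    constructor
    · intro h
      have h0 : funEval N δ P = 0 :=
        eq_zero_of_hasQExp_zero (funEval_diff δ P) (h ▸ funEval_qExp δ P)
      funext z
      have h1 := congrFun h0 (δ⁻¹ • z)
      have h2 := funEval_smul 1 δ P (δ⁻¹ • z)
      rw [smul_inv_smul, one_mul] at h2
      exact h2.trans h1
    · intro h
      have h0 : funEval N δ P = 0 := by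
        funext z
        rw [← one_mul δ, ← funEval_smul, h]
        rfl
      refine hasQExp_inj (nat_pos_real N) (funEval_qExp δ P) ?_
      rw [h0]
      have hz := hasQExp_C (N : ℝ) 0
      rw [map_zero] at hz
      exact hz
  exact (key γ).trans (key 1).symm

/-- The functions `j (d z)` are invariant under `Γ₀(N)`. -/
theorem jFn_mul_of_mem {δ : SL(2, ℤ)} (hδ : δ ∈ Gamma0 N) (γ : SL(2, ℤ)) (d : DivIdx N) :
    jFn N (δ * γ) d = jFn N γ d := by
  funext z
  show jH (triSmul d 0 1 ((δ * γ) • z)) = jH (triSmul d 0 1 (γ • z))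
  rw [mul_smul]
  obtain ⟨k, hk⟩ := exists_diag_mul_of_mem_Gamma0 (N := (d : ℕ)) (γ := δ) (by
    rw [mem_Gamma0_iff_conj] at hδ ⊢
    exact dvd_trans (Int.natCast_dvd_natCast.mpr d.dvd) hδ)
  have hu : upperTri ((d : ℕ) : ℤ) ((0 : ℕ) : ℤ) ((1 : ℕ) : ℤ) = diagOne ((d : ℕ) : ℤ) := by
    simp [upperTri, diagOne]
  have h := jH_diag_smul (d := (d : ℕ)) (γ := δ)
    ⟨k, d, 0, 1, Nat.mul_one _, Nat.one_pos, hk.trans (by rw [hu])⟩ (γ • z)
  simpa using h

theorem funEval_mul_of_mem {δ : SL(2, ℤ)} (hδ : δ ∈ Gamma0 N) (γ : SL(2, ℤ))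
    (P : MvPolynomial (DivIdx N) ℂ) : funEval N (δ * γ) P = funEval N γ P := by
  rw [funEval, funEval, funext (jFn_mul_of_mem hδ γ)]

theorem jSer_mul_of_mem {δ : SL(2, ℤ)} (hδ : δ ∈ Gamma0 N) (γ : SL(2, ℤ))
    (P : MvPolynomial (DivIdx N) ℂ) : serEval N (δ * γ) P = serEval N γ P :=
  hasQExp_inj (nat_pos_real N) (funEval_mul_of_mem hδ γ P ▸ funEval_qExp (δ * γ) P)
    (funEval_qExp γ P)

end FLTAgent.ModularCosets
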