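import Mathlib
import Fermat.Agent.ModularCosets.Transfer

/-!
# Level one: invariant functions are polynomials in `j`

`exists_aeval_jq`: a holomorphic `SL(2, ℤ)`-invariant function on `ℍ` with an expansion at
infinity is a polynomial in `j`, by cancelling polar parts and using that a bounded invariant
function is constant (`eq_const_of_invariant`). Also descent of periodic functions from
`q ^ (1 / N)` to `q`, and `transcendental_jqModC`.
-/

set_option autoImplicit false

noncomputable section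

open UpperHalfPlane Filter Topology ModularCurve
open scoped MatrixGroups Manifold ModularForm

namespace FLTAgent.ModularCosets

open FLTAgent.Modular

theorem coeff_algebraMap_mul {K : Type*} [Field K] (c : K) (x : LaurentSeries K) (k : ℤ) :
    (algebraMap K (LaurentSeries K) c * x).coeff k = c * x.coeff k := by
  rw [algebraMap_eq_HC, HahnSeries.C_apply, HahnSeries.coeff_single_zero_mul]

theorem coe_T_smul (z : ℍ) : ((ModularGroup.T • z : ℍ) : ℂ) = (z : ℂ) + 1 := by
  have h := ModularGroup.coe_T_zpow_smul_eq (z := z) (n := 1)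
  simpa using h

theorem im_T_smul (z : ℍ) : (ModularGroup.T • z).im = z.im := by
  have h := congrArg Complex.im (coe_T_smul z)
  simp only [Complex.add_im, Complex.one_im, add_zero] at h
  exact h

/-- Translation by `1` twists an expansion in `exp (2 π i z / N)` by `ζ`. -/
theorem hasQExp_T_smul {N : ℕ} [NeZero N] {f : ℍ → ℂ} {y : LaurentSeries ℂ}
    (h : HasQExp (N : ℝ) f y) :
    HasQExp (N : ℝ) (fun z => f (ModularGroup.T • z)) (twist (zetaU N) y) := by
  obtain ⟨C, hC⟩ := h
  refine ⟨C, fun z hz => ?_⟩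
  have hs := hC (ModularGroup.T • z) (by rwa [im_T_smul])
  convert hs using 1
  funext k
  rw [twist_coeff, mul_assoc, mul_left_comm]
  congr 1
  rw [Units.val_zpow_eq_zpow_val, zetaU, Units.val_mk0, ← Complex.exp_int_mul, qPow, qPow,
    ← Complex.exp_add, coe_T_smul]
  congr 1
  have hN : (N : ℂ) ≠ 0 := by exact_mod_cast NeZero.ne N
  push_cast
  field_simp
  ring

/-- An expansion in `exp (2 π i z / N)` supported on multiples of `N` is one in `exp (2 π i z)`. -/
theorem hasQExp_one_of_qScale {N : ℕ} [NeZero N] {f : ℍ → ℂ} {y : LaurentSeries ℂ}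
    (h : HasQExp (N : ℝ) f (qScale ℂ N y)) : HasQExp 1 f y := by
  obtain ⟨C, hC⟩ := h
  refine ⟨C, fun z hz => ?_⟩
  have hNz : ((N : ℕ) : ℤ) ≠ 0 := by exact_mod_cast NeZero.ne N
  have hs := hC z hz
  rw [← (mul_right_injective₀ hNz).hasSum_iff (f := fun k : ℤ =>
    (qScale ℂ N y).coeff k * qPow (N : ℝ) k z)] at hs
  · convert hs using 1
    funext k
    simp only [Function.comp_apply]
    rw [qScale_coeff_mul (NeZero.ne N)]
    congr 1
    rw [qPow, qPow]
    congr 1
    have hN : (N : ℂ) ≠ 0 := by exact_mod_cast NeZero.ne N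
    push_cast
    field_simp
  · intro k hk
    rw [qScale_coeff_of_not_dvd (NeZero.ne N) _ (fun ⟨i, hi⟩ => hk ⟨i, hi.symm⟩), zero_mul]

theorem mem_holPairs_one_of_periodic {N : ℕ} [NeZero N] {f : ℍ → ℂ} {y : LaurentSeries ℂ}
    {hN : 0 < (N : ℝ)} (h : (f, y) ∈ holPairs (N : ℝ) hN)
    (hT : ∀ z : ℍ, f (ModularGroup.T • z) = f z) :
    ∃ y₀, qScale ℂ N y₀ = y ∧ (f, y₀) ∈ holPairs 1 one_pos := by
  have h2 := hasQExp_T_smul (mem_holPairs.mp h).2
  simp only [hT] at h2
  have htw : twist (zetaU N) y = y := hasQExp_inj hN h2 (mem_holPairs.mp h).2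
  obtain ⟨y₀, hy₀⟩ := exists_qScale_eq (NeZero.ne N) fun k hk =>
    coeff_eq_zero_of_twist_eq (zetaU_primitive N) htw hk
  exact ⟨y₀, hy₀, (mem_holPairs.mp h).1, hasQExp_one_of_qScale (by
    have := (mem_holPairs.mp h).2
    rwa [← hy₀] at this)⟩

/-- A power series expansion means boundedness at `i∞`. -/
theorem isBounded_of_hasQExp {h : ℝ} (hh : 0 < h) {f : ℍ → ℂ} {y : LaurentSeries ℂ}
    (hf : HasQExp h f y) (hy : ∀ k < 0, y.coeff k = 0) : IsBoundedAtImInfty f := by
  obtain ⟨C, hC⟩ := hf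
  have hpos : 0 < max C 0 + 1 := by have := le_max_right C 0; linarith
  let z₀ : ℍ := ⟨⟨0, max C 0 + 1⟩, hpos⟩
  have hz₀ : z₀.im = max C 0 + 1 := rfl
  have hC₀ : C < z₀.im := by rw [hz₀]; have := le_max_left C 0; linarith
  have hsum : Summable fun k : ℤ => ‖y.coeff k * qPow h k z₀‖ := (hC z₀ hC₀).summable.norm
  rw [isBoundedAtImInfty_iff]
  refine ⟨∑' k : ℤ, ‖y.coeff k * qPow h k z₀‖, z₀.im, fun z hz => ?_⟩
  have hs := hC z (lt_of_lt_of_le hC₀ hz)
  rw [← hs.tsum_eq]
  refine (norm_tsum_le_tsum_norm hs.summable.norm).trans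
    (Summable.tsum_le_tsum (fun k => ?_) hs.summable.norm hsum)
  rcases lt_or_ge k 0 with hk | hk
  · rw [hy k hk, zero_mul, zero_mul]
  · rw [norm_mul, norm_mul]
    refine mul_le_mul_of_nonneg_left ?_ (norm_nonneg _)
    lift k to ℕ using hk with n
    rw [norm_qPow, norm_qPow, zpow_natCast, zpow_natCast]
    refine pow_le_pow_left₀ (Real.exp_nonneg _) (Real.exp_le_exp.mpr ?_) n
    have : 2 * Real.pi * z₀.im ≤ 2 * Real.pi * z.im :=
      mul_le_mul_of_nonneg_left hz (by positivity)
    exact div_le_div_of_nonneg_right (by linarith) hh.le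

/-- A holomorphic invariant function without pole at the cusp is constant. -/
theorem eq_const_of_invariant {f : ℍ → ℂ}
    (hd : DifferentiableOn ℂ (f ∘ ofComplex) {z : ℂ | 0 < z.im})
    (hinv : ∀ (γ : SL(2, ℤ)) (z : ℍ), f (γ • z) = f z) (hb : IsBoundedAtImInfty f) :
    ∃ c : ℂ, f = fun _ => c := by
  have hslash : ∀ γ : SL(2, ℤ), f ∣[(0 : ℤ)] γ = f := fun γ => by
    funext z
    rw [ModularForm.SL_slash_apply, neg_zero, zpow_zero, mul_one, hinv]
  let F : ModularForm 𝒮ℒ 0 :=
    { toFun := f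
      slash_action_eq' := fun A hA => by
        obtain ⟨γ, rfl⟩ := hA
        exact hslash γ
      holo' := UpperHalfPlane.mdifferentiable_iff.mpr hd
      bdd_at_cusps' := fun {c} hc => by
        rw [Subgroup.IsArithmetic.isCusp_iff_isCusp_SL2Z] at hc
        rw [OnePoint.isBoundedAt_iff_forall_SL2Z hc]
        intro γ _
        rw [hslash γ]
        exact hb }
  obtain ⟨c, hc⟩ := ModularFormClass.levelOne_weight_zero_const F
  exact ⟨c, hc⟩

theorem jPair_one_mem : (jH, jqModC ℂ) ∈ holPairs 1 one_pos :=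
  mem_holPairs.mpr ⟨jH_diff, jH_qExpC⟩

/-- A holomorphic `SL(2, ℤ)`-invariant function is a polynomial in `j`. -/
theorem exists_aeval_jq {f : ℍ → ℂ} {y : LaurentSeries ℂ} (hp : (f, y) ∈ holPairs 1 one_pos)
    (hinv : ∀ (γ : SL(2, ℤ)) (z : ℍ), f (γ • z) = f z) :
    ∃ P : Polynomial ℂ, Polynomial.aeval (jqModC ℂ) P = y ∧ ∀ z, P.eval (jH z) = f z := by
  suffices key : ∀ (m : ℕ) (g : ℍ → ℂ) (x : LaurentSeries ℂ), (g, x) ∈ holPairs 1 one_pos →
      (∀ (γ : SL(2, ℤ)) (z : ℍ), g (γ • z) = g z) → (∀ k < -(m : ℤ), x.coeff k = 0) →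
      ∃ P : Polynomial ℂ, Polynomial.aeval (jqModC ℂ) P = x ∧ ∀ z, P.eval (jH z) = g z by
    refine key (-y.order).toNat f y hp hinv fun k hk => HahnSeries.coeff_eq_zero_of_lt_order ?_
    omega
  intro m
  induction m with
  | zero =>
    intro g x hg hgi hx
    obtain ⟨c, rfl⟩ := eq_const_of_invariant (mem_holPairs.mp hg).1 hgi
      (isBounded_of_hasQExp one_pos (mem_holPairs.mp hg).2 fun k hk => hx k (by omega))
    refine ⟨Polynomial.C c, ?_, fun z => Polynomial.eval_C⟩
    rw [Polynomial.aeval_C, algebraMap_eq_HC]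
    exact hasQExp_inj one_pos (hasQExp_C 1 c) (mem_holPairs.mp hg).2
  | succ m ih =>
    intro g x hg hgi hx
    set c := x.coeff (-((m + 1 : ℕ) : ℤ)) with hc
    have hmem := (holPairs 1 one_pos).sub_mem hg
      ((holPairs 1 one_pos).mul_mem ((holPairs 1 one_pos).algebraMap_mem c)
        ((holPairs 1 one_pos).pow_mem jPair_one_mem (m + 1)))
    obtain ⟨P, hP1, hP2⟩ := ih (fun z => g z - c * jH z ^ (m + 1))
      (x - algebraMap ℂ (LaurentSeries ℂ) c * jqModC ℂ ^ (m + 1)) hmem (fun γ z => by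
        show g (γ • z) - c * jH (γ • z) ^ (m + 1) = g z - c * jH z ^ (m + 1)
        rw [hgi, jH_smul]) fun k hk => by
        rw [HahnSeries.coeff_sub, coeff_algebraMap_mul]
        rcases eq_or_lt_of_le (show k ≤ -((m + 1 : ℕ) : ℤ) by omega) with h | h
        · rw [h, coeff_jqModC_pow_self, mul_one, hc, sub_self]
        · rw [hx k h, coeff_jqModC_pow_of_lt ℂ h, mul_zero, sub_zero]
    refine ⟨P + Polynomial.C c * Polynomial.X ^ (m + 1), ?_, fun z => ?_⟩
    · rw [map_add, hP1, map_mul, map_pow, Polynomial.aeval_C, Polynomial.aeval_X,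
        sub_add_cancel]
    · simp [hP2]

/-- If `P (jq)` has coefficients in a subring, so has `P`. -/
theorem coeff_mem_of_aeval_jqModC {K : Type*} [Field K] (B : Subring K) (P : Polynomial K)
    (h : ∀ k, (Polynomial.aeval (jqModC K) P).coeff k ∈ B) : ∀ n, P.coeff n ∈ B := by
  suffices key : ∀ (d : ℕ) (P : Polynomial K), P.natDegree ≤ d →
      (∀ k, (Polynomial.aeval (jqModC K) P).coeff k ∈ B) → ∀ n, P.coeff n ∈ B from
    key P.natDegree P le_rfl h
  have hlead : ∀ (d : ℕ) (P : Polynomial K), P.natDegree ≤ d →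
      (Polynomial.aeval (jqModC K) P).coeff (-(d : ℤ)) = P.coeff d := by
    intro d P hd
    rw [Polynomial.aeval_eq_sum_range' (lt_of_le_of_lt hd (Nat.lt_succ_self d)),
      HahnSeries.coeff_sum, Finset.sum_eq_single d]
    · rw [Algebra.smul_def, coeff_algebraMap_mul, coeff_jqModC_pow_self, mul_one]
    · intro i hi hne
      rw [Algebra.smul_def, coeff_algebraMap_mul, coeff_jqModC_pow_of_lt K, mul_zero]
      have := Finset.mem_range.mp hi
      omega
    · intro hd'
      exact absurd (Finset.mem_range.mpr (Nat.lt_succ_self d)) hd'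
  have hjint : ∀ (n : ℕ) (k : ℤ), (jqModC K ^ n).coeff k ∈ B := by
    intro n k
    have e : jqModC K ^ n = coeffMap (Int.castRingHom K) (jqModC ℤ ^ n) := by
      rw [map_pow, coeffMap_jqModC]
    rw [e, coeffMap_coeff, eq_intCast]
    exact intCast_mem B _
  intro d
  induction d with
  | zero =>
    intro P hd hk n
    rcases Nat.eq_zero_or_pos n with rfl | hn
    · rw [← hlead 0 P hd]; exact hk _
    · rw [Polynomial.coeff_eq_zero_of_natDegree_lt (lt_of_le_of_lt hd hn)]; exact B.zero_mem
  | succ d ih =>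
    intro P hd hk n
    have hc : P.coeff (d + 1) ∈ B := hlead (d + 1) P hd ▸ hk _
    set Q := P - Polynomial.C (P.coeff (d + 1)) * Polynomial.X ^ (d + 1) with hQ
    have hQd : Q.natDegree ≤ d := Polynomial.natDegree_le_iff_coeff_eq_zero.mpr fun i hi => by
      rw [hQ, Polynomial.coeff_sub, Polynomial.coeff_C_mul_X_pow]
      split_ifs with h
      · subst h; rw [sub_self]
      · rw [sub_zero]; exact Polynomial.coeff_eq_zero_of_natDegree_lt (by omega)
    have hQk : ∀ k, (Polynomial.aeval (jqModC K) Q).coeff k ∈ B := fun k => by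
      rw [hQ, map_sub, map_mul, map_pow, Polynomial.aeval_C, Polynomial.aeval_X,
        HahnSeries.coeff_sub, coeff_algebraMap_mul]
      exact B.sub_mem (hk k) (B.mul_mem hc (hjint _ k))
    rcases eq_or_ne n (d + 1) with rfl | hn
    · exact hc
    · have h := ih Q hQd hQk n
      rwa [hQ, Polynomial.coeff_sub, Polynomial.coeff_C_mul_X_pow, if_neg hn, sub_zero] at h

/-- `P ↦ P (jq)` is injective. -/
theorem aeval_jqModC_injective (K : Type*) [Field K] :
    Function.Injective (Polynomial.aeval (R := K) (jqModC K)) := by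
  rw [injective_iff_map_eq_zero]
  intro P hP
  ext n
  rw [Polynomial.coeff_zero]
  by_contra hne
  have hP0 : P ≠ 0 := fun h => hne (by rw [h, Polynomial.coeff_zero])
  have h := congrArg (fun x : LaurentSeries K => x.coeff (-(P.natDegree : ℤ))) hP
  simp only [HahnSeries.coeff_zero] at h
  rw [Polynomial.aeval_eq_sum_range, HahnSeries.coeff_sum,
    Finset.sum_eq_single P.natDegree] at h
  · rw [Algebra.smul_def, coeff_algebraMap_mul, coeff_jqModC_pow_self, mul_one] at h
    exact Polynomial.leadingCoeff_ne_zero.mpr hP0 h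
  · intro i hi hne'
    rw [Algebra.smul_def, coeff_algebraMap_mul, coeff_jqModC_pow_of_lt K, mul_zero]
    have := Finset.mem_range.mp hi
    omega
  · intro hd'
    exact absurd (Finset.mem_range.mpr (Nat.lt_succ_self _)) hd'

/-- The series of `j` is transcendental. -/
theorem transcendental_jqModC (K : Type*) [Field K] : Transcendental K (jqModC K) :=
  transcendental_iff_injective.mpr (aeval_jqModC_injective K)

end FLTAgent.ModularCosets
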