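import Mathlib
import Fermat.Agent.ModularCosets.Transfer

/-!
# The embeddings of the function field of `X₀(N)` at every cusp

The field `FC N = ℂ(j (d z) : d ∣ N)` of Laurent series (`FC_eq`) is embedded by
`sigma N γ`, sending a rational expression in the `j (d z)` to the expansion of its composite
with `γ`. It is well defined by the transfer of relations, restricts to `q ↦ q ^ N` for `γ = 1`
(`sigma_one_apply`) and depends only on the coset `Γ₀(N) γ` (`sigma_mul_of_mem`).
-/

set_option autoImplicit false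

noncomputable section

open UpperHalfPlane Filter Topology ModularCurve CongruenceSubgroup
open scoped MatrixGroups IntermediateField.algebraAdjoinAdjoin

namespace FLTAgent.ModularCosets

open FLTAgent.Modular

variable (N : ℕ) [NeZero N]

/-- The series of `j (d z)` in `q`. -/
def jGens (K : Type*) [Field K] (d : DivIdx N) : LaurentSeries K := qScale K d (jqModC K)

theorem range_jGens (K : Type*) [Field K] :
    Set.range (jGens N K) = divisorExpansionsC K N := by
  ext x
  constructor
  · rintro ⟨d, rfl⟩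
    exact ⟨d, inferInstance, d.dvd, by rw [jGens, qScale_eq]⟩
  · rintro ⟨d, hd, hdvd, rfl⟩
    exact ⟨⟨d, Nat.mem_divisors.mpr ⟨hdvd, NeZero.ne N⟩⟩, by rw [jGens, qScale_eq]⟩

theorem fullC_eq_adjoin (K : Type*) [Field K] :
    modularFunctionFieldFullC K N = IntermediateField.adjoin K (Set.range (jGens N K)) := by
  rw [range_jGens, modularFunctionFieldFullC]

omit [NeZero N] in
theorem coeffEmb_divisorExpansions (L : Type*) [Field L] [Algebra ℚ L] {d : ℕ} [NeZero d] :
    coeffEmb L (qExpand ℚ d jq) = qExpand L d (jqModC L) := by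
  rw [← coeffEmb_jq_eq, coeffEmb, ModularCurve.coeffMap_qExpand]

omit [NeZero N] in
/-- The base change of the `ℚ`-field is generated by the series of `j (d z)`. -/
theorem laurentBaseChange_full (L : Type*) [Field L] [Algebra ℚ L] :
    laurentBaseChange L (modularFunctionFieldFull N) = modularFunctionFieldFullC L N := by
  apply le_antisymm
  · rw [laurentBaseChange, IntermediateField.adjoin_le_iff]
    rintro _ ⟨y, hy, rfl⟩
    let T : IntermediateField ℚ (LaurentSeries ℚ) :=
      Subfield.toIntermediateField ((modularFunctionFieldFullC L N).toSubfield.comap (coeffEmb L))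
        fun r => by
          rw [Subfield.mem_comap, eq_ratCast, map_ratCast]
          exact SubfieldClass.ratCast_mem _ r
    have hle : modularFunctionFieldFull N ≤ T := by
      rw [modularFunctionFieldFull, IntermediateField.adjoin_le_iff]
      rintro _ ⟨d, hne, hd, rfl⟩
      show coeffEmb L (qExpand ℚ d jq) ∈ modularFunctionFieldFullC L N
      rw [coeffEmb_divisorExpansions]
      exact jqModCd_mem_full L N hd
    exact hle hy
  · rw [modularFunctionFieldFullC, IntermediateField.adjoin_le_iff]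
    rintro _ ⟨d, hne, hd, rfl⟩
    have := coeffEmb_mem_laurentBaseChange L (jqd_mem_full N hd)
    rwa [coeffEmb_divisorExpansions] at this

theorem FC_eq : FC N = IntermediateField.adjoin ℂ (Set.range (jGens N ℂ)) := by
  rw [← fullC_eq_adjoin, ← laurentBaseChange_full]

/-- Evaluation at the series in `q`. -/
def baseEval : MvPolynomial (DivIdx N) ℂ →ₐ[ℂ] LaurentSeries ℂ := MvPolynomial.aeval (jGens N ℂ)

theorem jSer_one (d : DivIdx N) : jSer N 1 d = qScale ℂ N (jGens N ℂ d) := by
  have he : diagOne ((d : ℕ) : ℤ) * ((1 : SL(2, ℤ)) : Matrix (Fin 2) (Fin 2) ℤ)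
      = ((1 : SL(2, ℤ)) : Matrix (Fin 2) (Fin 2) ℤ)
        * upperTri ((d : ℕ) : ℤ) ((0 : ℕ) : ℤ) ((1 : ℕ) : ℤ) := by
    simp [upperTri, diagOne]
  rw [jSer_eq N 1 d ⟨1, d, 0, 1, Nat.mul_one _, Nat.one_pos, he⟩, cuspExp_apply, jGens,
    qScale_qScale (NeZero.ne N) (NeZero.ne (d : ℕ)), Nat.div_one, Nat.cast_zero, zero_mul,
    zpow_zero, twist_one, Nat.mul_comm]

theorem serEval_one (P : MvPolynomial (DivIdx N) ℂ) :
    serEval N 1 P = qScale ℂ N (baseEval N P) := by
  let S : LaurentSeries ℂ →ₐ[ℂ] LaurentSeries ℂ :=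
    { qScale ℂ N with
      commutes' := fun c => by
        show qScale ℂ N (algebraMap ℂ (LaurentSeries ℂ) c) = algebraMap ℂ (LaurentSeries ℂ) c
        rw [algebraMap_eq_HC, qScale_C] }
  have h : serEval N 1 = S.comp (baseEval N) := by
    refine MvPolynomial.algHom_ext fun d => ?_
    show serEval N 1 (MvPolynomial.X d) = qScale ℂ N (baseEval N (MvPolynomial.X d))
    rw [serEval, baseEval, MvPolynomial.aeval_X, MvPolynomial.aeval_X, jSer_one]
  exact DFunLike.congr_fun h P

variable {N}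

theorem serEval_eq_zero_iff_base (γ : SL(2, ℤ)) (P : MvPolynomial (DivIdx N) ℂ) :
    serEval N γ P = 0 ↔ baseEval N P = 0 := by
  rw [serEval_eq_zero_iff, serEval_one, map_eq_zero_iff _ (qScale_injective N)]

theorem baseEval_mem (P : MvPolynomial (DivIdx N) ℂ) :
    baseEval N P ∈ Algebra.adjoin ℂ (Set.range (jGens N ℂ)) := by
  rw [Algebra.adjoin_range_eq_range_aeval]
  exact ⟨P, rfl⟩

/-- `baseEval` onto the ring it generates. -/
def baseEvalOnto : MvPolynomial (DivIdx N) ℂ →+* Algebra.adjoin ℂ (Set.range (jGens N ℂ)) :=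
  (baseEval N).toRingHom.codRestrict _ baseEval_mem

theorem baseEvalOnto_surjective : Function.Surjective (baseEvalOnto (N := N)) := by
  rintro ⟨x, hx⟩
  rw [Algebra.adjoin_range_eq_range_aeval] at hx
  obtain ⟨P, rfl⟩ := hx
  exact ⟨P, rfl⟩

/-- The embedding on the ring generated by the `j (d z)`, as a ring homomorphism. -/
def sigmaRing (γ : SL(2, ℤ)) :
    Algebra.adjoin ℂ (Set.range (jGens N ℂ)) →+* LaurentSeries ℂ :=
  baseEvalOnto.liftOfSurjective baseEvalOnto_surjective
    ⟨(serEval N γ).toRingHom, fun P hP =>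
      (serEval_eq_zero_iff_base γ P).mpr (congrArg Subtype.val hP)⟩

theorem sigmaRing_baseEval (γ : SL(2, ℤ)) (P : MvPolynomial (DivIdx N) ℂ) :
    sigmaRing γ ⟨baseEval N P, baseEval_mem P⟩ = serEval N γ P :=
  RingHom.liftOfSurjective_comp_apply _ baseEvalOnto_surjective _ P

/-- The embedding on the ring generated by the `j (d z)`. -/
def sigmaAlg (γ : SL(2, ℤ)) :
    Algebra.adjoin ℂ (Set.range (jGens N ℂ)) →ₐ[ℂ] LaurentSeries ℂ :=
  { sigmaRing γ with
    commutes' := fun c => by
      have h : algebraMap ℂ (Algebra.adjoin ℂ (Set.range (jGens N ℂ))) c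
          = ⟨baseEval N (MvPolynomial.C c), baseEval_mem _⟩ :=
        Subtype.ext (MvPolynomial.aeval_C _ c).symm
      show sigmaRing γ (algebraMap ℂ (Algebra.adjoin ℂ (Set.range (jGens N ℂ))) c) = _
      rw [h, sigmaRing_baseEval]
      exact MvPolynomial.aeval_C _ c }

theorem sigmaAlg_baseEval (γ : SL(2, ℤ)) (P : MvPolynomial (DivIdx N) ℂ) :
    sigmaAlg γ ⟨baseEval N P, baseEval_mem P⟩ = serEval N γ P :=
  sigmaRing_baseEval γ P

theorem exists_baseEval_eq {x : LaurentSeries ℂ}
    (hx : x ∈ Algebra.adjoin ℂ (Set.range (jGens N ℂ))) : ∃ P, baseEval N P = x := by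
  rwa [Algebra.adjoin_range_eq_range_aeval, AlgHom.mem_range] at hx

theorem sigmaAlg_injective (γ : SL(2, ℤ)) :
    Function.Injective (sigmaAlg (N := N) γ) := by
  rw [injective_iff_map_eq_zero]
  rintro ⟨x, hx⟩ h
  obtain ⟨P, rfl⟩ := exists_baseEval_eq hx
  rw [sigmaAlg_baseEval, serEval_eq_zero_iff_base] at h
  exact Subtype.ext h

variable (N) in
/-- The expansion of `y (γ z)` in `exp (2 π i z / N)`, as an embedding of fields. -/
def sigma (γ : SL(2, ℤ)) : FC N →ₐ[ℂ] LaurentSeries ℂ :=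
  (IsFractionRing.liftAlgHom (g := sigmaAlg (N := N) γ) (sigmaAlg_injective γ)).comp
    (IntermediateField.equivOfEq (FC_eq N)).toAlgHom

theorem baseEval_mem_FC (P : MvPolynomial (DivIdx N) ℂ) : baseEval N P ∈ FC N := by
  rw [FC_eq]
  exact IntermediateField.algebra_adjoin_le_adjoin _ _ (baseEval_mem P)

theorem sigma_baseEval (γ : SL(2, ℤ)) (P : MvPolynomial (DivIdx N) ℂ) :
    sigma N γ ⟨baseEval N P, baseEval_mem_FC P⟩ = serEval N γ P := by
  rw [← sigmaAlg_baseEval γ P, sigma, AlgHom.comp_apply]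
  have h : (IntermediateField.equivOfEq (FC_eq N)).toAlgHom ⟨baseEval N P, baseEval_mem_FC P⟩
      = algebraMap (Algebra.adjoin ℂ (Set.range (jGens N ℂ))) _
          ⟨baseEval N P, baseEval_mem P⟩ := Subtype.ext rfl
  rw [h]
  exact IsFractionRing.lift_algebraMap (sigmaAlg_injective γ) _

theorem jGens_mem_FC (d : DivIdx N) : jGens N ℂ d ∈ FC N := by
  rw [FC_eq]
  exact IntermediateField.subset_adjoin _ _ ⟨d, rfl⟩

theorem sigma_jGens (γ : SL(2, ℤ)) (d : DivIdx N) :
    sigma N γ ⟨jGens N ℂ d, jGens_mem_FC d⟩ = jSer N γ d := by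
  have h := sigma_baseEval γ (MvPolynomial.X d : MvPolynomial (DivIdx N) ℂ)
  simpa [baseEval, serEval, MvPolynomial.aeval_X] using h

/-- Every element is a quotient of two polynomials in the `j (d z)`. -/
theorem exists_baseEval_div (y : FC N) :
    ∃ P Q : MvPolynomial (DivIdx N) ℂ, baseEval N Q ≠ 0 ∧
      (y : LaurentSeries ℂ) = baseEval N P / baseEval N Q := by
  obtain ⟨p, hp, q, hq, he⟩ := IntermediateField.mem_adjoin_iff_div.mp ((FC_eq N) ▸ y.2 :
    (y : LaurentSeries ℂ) ∈ IntermediateField.adjoin ℂ (Set.range (jGens N ℂ)))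
  obtain ⟨P, rfl⟩ := exists_baseEval_eq hp
  by_cases hq0 : q = 0
  · exact ⟨0, 1, by simp, by rw [he, hq0]; simp⟩
  · obtain ⟨Q, rfl⟩ := exists_baseEval_eq hq
    exact ⟨P, Q, hq0, he⟩

theorem sigma_eq_div (γ : SL(2, ℤ)) {y : FC N} {P Q : MvPolynomial (DivIdx N) ℂ}
    (hy : (y : LaurentSeries ℂ) = baseEval N P / baseEval N Q) :
    sigma N γ y = serEval N γ P / serEval N γ Q := by
  rw [← sigma_baseEval γ P, ← sigma_baseEval γ Q, ← map_div₀]
  congr 1
  exact Subtype.ext hy

theorem sigma_one_apply (y : FC N) : sigma N 1 y = qScale ℂ N y := by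
  obtain ⟨P, Q, -, h⟩ := exists_baseEval_div y
  rw [sigma_eq_div 1 h, serEval_one, serEval_one, ← map_div₀, ← h]

/-- The embedding depends only on the coset `Γ₀(N) γ`. -/
theorem sigma_mul_of_mem {δ : SL(2, ℤ)} (hδ : δ ∈ Gamma0 N) (γ : SL(2, ℤ)) (y : FC N) :
    sigma N (δ * γ) y = sigma N γ y := by
  obtain ⟨P, Q, -, h⟩ := exists_baseEval_div y
  rw [sigma_eq_div _ h, sigma_eq_div γ h, jSer_mul_of_mem hδ, jSer_mul_of_mem hδ]

end FLTAgent.ModularCosets
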