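import Mathlib
import Fermat.Agent.ModularCosets.Sigma
import Fermat.Agent.ModularCosets.LevelOne
import Fermat.Agent.ModularCosets.Embeddings

/-!
# The degree of the function field of `X₀(N)` over `ℂ(j)`

`finrank_FCj` and `finrank_FC_eq`: `[ℂ(j (d z) : d ∣ N) : ℂ(j)] = ψ(N)`. The `ψ(N)` coset
embeddings are distinct because they already differ at `j (N z)`; conversely the product of
`Y - y` over the conjugates `y` of a polynomial in the `j (d z)` has level one coefficients, hence
in `ℂ[j]`, which bounds the degree by `ψ(N)`. Consequently `charpoly_FCj` is the product over the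
cosets and `adjoin_jNC_eq_top`: `j (N z)` generates.
-/

set_option autoImplicit false
set_option synthInstance.maxHeartbeats 400000
set_option maxHeartbeats 1000000

noncomputable section

open UpperHalfPlane Filter Topology ModularCurve CongruenceSubgroup Polynomial
open scoped MatrixGroups

namespace FLTAgent.ModularCosets

open FLTAgent.Modular

variable (N : ℕ) [NeZero N]

/-- The divisor `1`. -/
def oneDiv : DivIdx N := ⟨1, Nat.mem_divisors.mpr ⟨one_dvd N, NeZero.ne N⟩⟩

/-- The divisor `N`. -/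
def topDiv : DivIdx N := ⟨N, Nat.mem_divisors.mpr ⟨dvd_rfl, NeZero.ne N⟩⟩

/-- The field `ℂ(j)`. -/
abbrev CJ : IntermediateField ℂ (LaurentSeries ℂ) :=
  IntermediateField.adjoin ℂ ({coeffEmb ℂ jq} : Set (LaurentSeries ℂ))

/-- `P ↦ P (jq)`. -/
abbrev evalJ : ℂ[X] →+* LaurentSeries ℂ := (Polynomial.aeval (jqModC ℂ)).toRingHom

/-- `j` as an element of `ℂ(j)`. -/
def jCJ : CJ := ⟨coeffEmb ℂ jq, IntermediateField.subset_adjoin _ _ rfl⟩

/-- `P ↦ P (j)` into `ℂ(j)`. -/
def evalCJ : ℂ[X] →+* CJ := (Polynomial.aeval jCJ).toRingHom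

theorem coe_evalCJ (p : ℂ[X]) : ((evalCJ p : CJ) : LaurentSeries ℂ) = evalJ p := by
  show CJ.val (Polynomial.aeval jCJ p) = Polynomial.aeval (jqModC ℂ) p
  rw [← Polynomial.aeval_algHom_apply, ← coeffEmb_jq_eq]
  rfl

theorem exists_evalJ_div {x : LaurentSeries ℂ} (hx : x ∈ CJ) :
    ∃ p r : ℂ[X], evalJ r ≠ 0 ∧ x = evalJ p / evalJ r := by
  obtain ⟨p, r, he⟩ := (IntermediateField.mem_adjoin_simple_iff _ x).mp hx
  rw [coeffEmb_jq_eq] at he
  by_cases hr : evalJ r = 0
  · refine ⟨0, 1, by simp, ?_⟩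
    rw [he, show Polynomial.aeval (jqModC ℂ) r = 0 from hr]
    simp
  · exact ⟨p, r, hr, he⟩

theorem CJ_le : CJ ≤ FC N :=
  IntermediateField.adjoin_le_iff.mpr (Set.singleton_subset_iff.mpr
    (coeffEmb_mem_laurentBaseChange ℂ (modularFunctionField_le_full N (jq_mem N))))

/-- The function field as an extension of `ℂ(j)`. -/
abbrev FCj : IntermediateField CJ (LaurentSeries ℂ) := IntermediateField.extendScalars (CJ_le N)

/-- `j (N z)`. -/
def jNC : FC N := ⟨jGens N ℂ (topDiv N), jGens_mem_FC (topDiv N)⟩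

theorem jGens_one : jGens N ℂ (oneDiv N) = jqModC ℂ := qScale_one _

theorem evalJ_eq_baseEval (p : ℂ[X]) :
    evalJ p = baseEval N (Polynomial.aeval (MvPolynomial.X (oneDiv N)) p) := by
  rw [← Polynomial.aeval_algHom_apply, baseEval, MvPolynomial.aeval_X, jGens_one]
  rfl

theorem evalJ_mem_FC (p : ℂ[X]) : evalJ p ∈ FC N := by
  rw [evalJ_eq_baseEval N p]
  exact baseEval_mem_FC _

variable {N}

theorem jSer_oneDiv (γ : SL(2, ℤ)) : jSer N γ (oneDiv N) = qScale ℂ N (jqModC ℂ) := by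
  have he : diagOne (((oneDiv N : DivIdx N) : ℕ) : ℤ) * (γ : Matrix (Fin 2) (Fin 2) ℤ)
      = (γ : Matrix (Fin 2) (Fin 2) ℤ)
        * upperTri ((1 : ℕ) : ℤ) ((0 : ℕ) : ℤ) ((1 : ℕ) : ℤ) := by
    simp [oneDiv, diagOne, upperTri, ← Matrix.one_fin_two]
  rw [jSer_eq N γ (oneDiv N) ⟨γ, 1, 0, 1, rfl, Nat.one_pos, he⟩, cuspExp_apply, Nat.div_one,
    Nat.one_mul, Nat.cast_zero, zero_mul, zpow_zero, twist_one]

theorem serEval_aeval_oneDiv (γ : SL(2, ℤ)) (p : ℂ[X]) :
    serEval N γ (Polynomial.aeval (MvPolynomial.X (oneDiv N)) p) = qScale ℂ N (evalJ p) := by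
  have h1 : serEval N γ (Polynomial.aeval (MvPolynomial.X (oneDiv N)) p)
      = serEval N 1 (Polynomial.aeval (MvPolynomial.X (oneDiv N)) p) := by
    simp only [← Polynomial.aeval_algHom_apply, serEval, MvPolynomial.aeval_X, jSer_oneDiv]
  rw [h1, serEval_one, ← evalJ_eq_baseEval]

theorem sigma_of_mem_CJ (γ : SL(2, ℤ)) {x : LaurentSeries ℂ} (hx : x ∈ CJ) :
    sigma N γ ⟨x, CJ_le N hx⟩ = qScale ℂ N x := by
  obtain ⟨p, r, -, rfl⟩ := exists_evalJ_div hx
  rw [sigma_eq_div γ (y := ⟨_, CJ_le N hx⟩) (P := Polynomial.aeval (MvPolynomial.X (oneDiv N)) p)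
    (Q := Polynomial.aeval (MvPolynomial.X (oneDiv N)) r)
    (by rw [← evalJ_eq_baseEval, ← evalJ_eq_baseEval]),
    serEval_aeval_oneDiv, serEval_aeval_oneDiv, map_div₀]

/-- The series at the coset `c`. -/
def sigmaC (c : CosetIdx N) : FC N →ₐ[ℂ] LaurentSeries ℂ := sigma N c.rep

theorem sigmaC_jNC (c : CosetIdx N) : sigmaC c (jNC N) = jConj ℂ (zetaU N) c.a c.b := by
  rw [sigmaC, jNC, sigma_jGens, jConj_eq_cuspExp (zetaU N) (NeZero.ne N) c.a_dvd]
  exact jSer_eq N c.rep (topDiv N) ⟨c.repLeft, c.a, c.b, c.D, c.a_mul_D, c.b_lt, c.diag_mul_rep⟩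

theorem sigmaC_jNC_injective : Function.Injective fun c : CosetIdx N => sigmaC c (jNC N) := by
  intro c c' h
  simp only [sigmaC_jNC] at h
  obtain ⟨h1, h2⟩ := jConj_inj (NeZero.ne N) (zetaU_primitive N) c.a_dvd c'.a_dvd c.b_lt c'.b_lt h
  exact CosetIdx.ext' h1 h2

theorem sigmaC_injective : Function.Injective (sigmaC (N := N)) := fun _ _ h =>
  sigmaC_jNC_injective (DFunLike.congr_fun h (jNC N))

/-- The coset of `γ`. -/
def cosetOf (γ : SL(2, ℤ)) : CosetIdx N := (existsUnique_cosetIdx γ).choose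

theorem cosetOf_spec (γ : SL(2, ℤ)) : γ * (cosetOf (N := N) γ).rep⁻¹ ∈ Gamma0 N :=
  (existsUnique_cosetIdx (N := N) γ).choose_spec.1

theorem cosetOf_unique {γ : SL(2, ℤ)} {c : CosetIdx N} (h : γ * c.rep⁻¹ ∈ Gamma0 N) :
    cosetOf γ = c :=
  ((existsUnique_cosetIdx (N := N) γ).choose_spec.2 c h).symm

theorem cosetOf_rep (c : CosetIdx N) : cosetOf c.rep = c :=
  cosetOf_unique (by simp [(Gamma0 N).one_mem])

theorem serEval_cosetOf (γ : SL(2, ℤ)) (P : MvPolynomial (DivIdx N) ℂ) :
    serEval N (cosetOf (N := N) γ).rep P = serEval N γ P := by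
  have h := jSer_mul_of_mem (cosetOf_spec (N := N) γ) (cosetOf (N := N) γ).rep P
  rw [inv_mul_cancel_right] at h
  exact h.symm

theorem funEval_cosetOf (γ : SL(2, ℤ)) (P : MvPolynomial (DivIdx N) ℂ) :
    funEval N (cosetOf (N := N) γ).rep P = funEval N γ P := by
  have h := funEval_mul_of_mem (cosetOf_spec (N := N) γ) (cosetOf (N := N) γ).rep P
  rw [inv_mul_cancel_right] at h
  exact h.symm

theorem sigmaC_cosetOf (γ : SL(2, ℤ)) (y : FC N) :
    sigmaC (cosetOf (N := N) γ) y = sigma N γ y := by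
  have h := sigma_mul_of_mem (cosetOf_spec (N := N) γ) (cosetOf (N := N) γ).rep y
  rw [inv_mul_cancel_right] at h
  exact h.symm

/-- Right translation permutes the cosets. -/
def cosetPerm (γ : SL(2, ℤ)) : Equiv.Perm (CosetIdx N) where
  toFun c := cosetOf (c.rep * γ)
  invFun c := cosetOf (c.rep * γ⁻¹)
  left_inv c := by
    refine cosetOf_unique ?_
    have h := (Gamma0 N).inv_mem (cosetOf_spec (N := N) (c.rep * γ))
    simp only [mul_inv_rev, inv_inv] at h
    rwa [mul_assoc]
  right_inv c := by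
    refine cosetOf_unique ?_
    have h := (Gamma0 N).inv_mem (cosetOf_spec (N := N) (c.rep * γ⁻¹))
    simp only [mul_inv_rev, inv_inv] at h
    rwa [mul_assoc]

variable (N) in
/-- `∏ (Y - expansion of P at the coset)`. -/
def prodPoly (P : MvPolynomial (DivIdx N) ℂ) : (LaurentSeries ℂ)[X] :=
  ∏ c : CosetIdx N, (X - C (serEval N c.rep P))

theorem prodPoly_natDegree (P : MvPolynomial (DivIdx N) ℂ) :
    (prodPoly N P).natDegree = dedekindPsi N := by
  rw [prodPoly, natDegree_prod_of_monic _ _ fun c _ => monic_X_sub_C _]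
  simp only [natDegree_X_sub_C, Finset.sum_const, smul_eq_mul, mul_one]
  rw [Finset.card_univ, card_cosetIdx]

theorem coeff_prodPoly_mem (P : MvPolynomial (DivIdx N) ℂ) (n : ℕ) :
    ∃ p : ℂ[X], qScale ℂ N (evalJ p) = (prodPoly N P).coeff n := by
  let S : Subring ((ℍ → ℂ) × LaurentSeries ℂ) := (holPairs (N : ℝ) (nat_pos_real N)).toSubring
  let pr : CosetIdx N → ↥S := fun c => ⟨(funEval N c.rep P, serEval N c.rep P), evalPair_mem c.rep P⟩
  let Q : Polynomial S := ∏ c : CosetIdx N, ((Polynomial.X : Polynomial S) - Polynomial.C (pr c))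
  let sndHom : ↥S →+* LaurentSeries ℂ :=
    (RingHom.snd (ℍ → ℂ) (LaurentSeries ℂ)).comp S.subtype
  let evHom : ℍ → (↥S →+* ℂ) := fun z =>
    (Pi.evalRingHom (fun _ : ℍ => ℂ) z).comp
      ((RingHom.fst (ℍ → ℂ) (LaurentSeries ℂ)).comp S.subtype)
  have hsnd : (Q.coeff n : ↥S).1.2 = (prodPoly N P).coeff n := by
    have h : Q.map sndHom = prodPoly N P := by
      simp only [Q, pr, prodPoly, Polynomial.map_prod, Polynomial.map_sub, Polynomial.map_X,
        Polynomial.map_C]
      rfl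
    rw [← h, Polynomial.coeff_map]
    rfl
  have hfst : ∀ (γ : SL(2, ℤ)) (z : ℍ),
      (Q.coeff n : ↥S).1.1 (γ • z) = (Q.coeff n : ↥S).1.1 z := by
    intro γ z
    have hmap : ∀ w, Q.map (evHom w) = ∏ c : CosetIdx N, (X - C (funEval N c.rep P w)) := by
      intro w
      simp only [Q, pr, Polynomial.map_prod, Polynomial.map_sub, Polynomial.map_X, Polynomial.map_C]
      rfl
    have h : Q.map (evHom (γ • z)) = Q.map (evHom z) := by
      rw [hmap, hmap]
      refine Fintype.prod_equiv (cosetPerm γ) _ _ fun c => ?_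
      rw [funEval_smul]
      show _ = X - C (funEval N (cosetOf (N := N) (c.rep * γ)).rep P z)
      rw [funEval_cosetOf]
    have h2 := congrArg (fun R : ℂ[X] => R.coeff n) h
    simp only [Polynomial.coeff_map] at h2
    exact h2
  obtain ⟨y₀, hy₀, hmem⟩ := mem_holPairs_one_of_periodic (hN := nat_pos_real N) (y := (Q.coeff n : ↥S).1.2)
    (Q.coeff n).2 (fun z => hfst _ z)
  obtain ⟨p, hp, -⟩ := exists_aeval_jq hmem hfst
  refine ⟨p, ?_⟩
  rw [← hsnd, ← hy₀, ← hp]
  rfl

/-- A monic equation of degree `ψ N` over `ℂ[j]`. -/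
theorem exists_monic_relation (P : MvPolynomial (DivIdx N) ℂ) :
    ∃ R : (ℂ[X])[X], R.Monic ∧ R.natDegree = dedekindPsi N ∧
      R.map ((qScale ℂ N).comp evalJ) = prodPoly N P ∧ R.eval₂ evalJ (baseEval N P) = 0 := by
  have hmon : (prodPoly N P).Monic := monic_prod_of_monic _ _ fun c _ => monic_X_sub_C _
  obtain ⟨R, hR1, hR2, hR3⟩ := lifts_and_degree_eq_and_monic
    ((lifts_iff_coeff_lifts (f := (qScale ℂ N).comp evalJ) (prodPoly N P)).mpr fun n => by
      obtain ⟨p, hp⟩ := coeff_prodPoly_mem P n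
      exact ⟨p, hp⟩) hmon
  refine ⟨R, hR3, by rw [natDegree_eq_of_degree_eq hR2, prodPoly_natDegree], hR1, ?_⟩
  apply qScale_injective (R := ℂ) N
  rw [Polynomial.hom_eval₂, map_zero, ← Polynomial.eval_map, hR1, prodPoly, eval_prod]
  refine Finset.prod_eq_zero (Finset.mem_univ (cosetOf (N := N) 1)) ?_
  rw [eval_sub, eval_X, eval_C, serEval_cosetOf, serEval_one, sub_self]

theorem natDegree_minpoly_baseEval_le (P : MvPolynomial (DivIdx N) ℂ) :
    IsIntegral CJ (baseEval N P) ∧ (minpoly CJ (baseEval N P)).natDegree ≤ dedekindPsi N := by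
  obtain ⟨R, hR1, hR2, -, hR4⟩ := exists_monic_relation P
  have hcomp : (algebraMap CJ (LaurentSeries ℂ)).comp evalCJ = evalJ := RingHom.ext coe_evalCJ
  have hroot : Polynomial.aeval (baseEval N P) (R.map evalCJ) = 0 := by
    rw [Polynomial.aeval_def, Polynomial.eval₂_map, hcomp]
    exact hR4
  refine ⟨⟨R.map evalCJ, hR1.map _, hroot⟩, ?_⟩
  exact (natDegree_le_of_dvd (minpoly.dvd CJ _ hroot) (hR1.map evalCJ).ne_zero).trans
    ((Polynomial.natDegree_map_le (f := evalCJ)).trans hR2.le)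

variable (N) in
theorem FCj_eq_adjoin : FCj N = IntermediateField.adjoin CJ (Set.range (jGens N ℂ)) := by
  apply IntermediateField.restrictScalars_injective ℂ
  rw [IntermediateField.extendScalars_restrictScalars]
  unfold CJ
  rw [IntermediateField.adjoin_adjoin_left, FC_eq]
  refine le_antisymm (IntermediateField.adjoin.mono ℂ _ _ Set.subset_union_right) ?_
  rw [IntermediateField.adjoin_le_iff]
  rintro x (rfl | hx)
  · refine IntermediateField.subset_adjoin _ _ ⟨oneDiv N, ?_⟩
    rw [jGens_one, coeffEmb_jq_eq]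
  · exact IntermediateField.subset_adjoin _ _ hx

theorem isIntegral_jGens (d : DivIdx N) : IsIntegral CJ (jGens N ℂ d) := by
  have h := (natDegree_minpoly_baseEval_le (MvPolynomial.X d : MvPolynomial (DivIdx N) ℂ)).1
  rwa [baseEval, MvPolynomial.aeval_X] at h

instance finiteDimensional_FCj : FiniteDimensional CJ (FCj N) := by
  have h : FiniteDimensional CJ (IntermediateField.adjoin CJ (Set.range (jGens N ℂ))) :=
    IntermediateField.finiteDimensional_adjoin fun x ⟨d, hd⟩ => hd ▸ isIntegral_jGens d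
  rwa [← FCj_eq_adjoin] at h

/-- Clearing denominators in `ℂ[j]`. -/
theorem exists_clear {x : LaurentSeries ℂ}
    (hx : x ∈ Algebra.adjoin CJ (Set.range (jGens N ℂ))) :
    ∃ h : ℂ[X], evalJ h ≠ 0 ∧ ∃ P, baseEval N P = evalJ h * x := by
  induction hx using Algebra.adjoin_induction with
  | mem x hx =>
    obtain ⟨d, rfl⟩ := hx
    exact ⟨1, by simp, MvPolynomial.X d, by simp [baseEval, MvPolynomial.aeval_X]⟩
  | algebraMap c =>
    obtain ⟨p, r, hr, hc⟩ := exists_evalJ_div c.2
    refine ⟨r, hr, Polynomial.aeval (MvPolynomial.X (oneDiv N)) p, ?_⟩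
    rw [← evalJ_eq_baseEval, show (algebraMap CJ (LaurentSeries ℂ) c) = (c : LaurentSeries ℂ) from rfl,
      hc, mul_div_cancel₀ _ hr]
  | add x y _ _ hx hy =>
    obtain ⟨h, hh, P, hP⟩ := hx
    obtain ⟨k, hk, Q, hQ⟩ := hy
    refine ⟨h * k, by rw [map_mul]; exact mul_ne_zero hh hk,
      Polynomial.aeval (MvPolynomial.X (oneDiv N)) k * P
        + Polynomial.aeval (MvPolynomial.X (oneDiv N)) h * Q, ?_⟩
    rw [map_add, map_mul, map_mul, ← evalJ_eq_baseEval, ← evalJ_eq_baseEval, hP, hQ, map_mul]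
    ring
  | mul x y _ _ hx hy =>
    obtain ⟨h, hh, P, hP⟩ := hx
    obtain ⟨k, hk, Q, hQ⟩ := hy
    refine ⟨h * k, by rw [map_mul]; exact mul_ne_zero hh hk, P * Q, ?_⟩
    rw [map_mul, hP, hQ, map_mul]
    ring

theorem finrank_FCj_le : Module.finrank CJ (FCj N) ≤ dedekindPsi N := by
  obtain ⟨θ, hθ⟩ := Field.exists_primitive_element CJ (FCj N)
  have hmem : (θ : LaurentSeries ℂ) ∈ Algebra.adjoin CJ (Set.range (jGens N ℂ)) := by
    have h : (θ : LaurentSeries ℂ) ∈ IntermediateField.adjoin CJ (Set.range (jGens N ℂ)) :=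
      (SetLike.ext_iff.mp (FCj_eq_adjoin N) _).mp θ.2
    rw [← IntermediateField.adjoin_toSubalgebra_of_isAlgebraic
      (S := Set.range (jGens N ℂ)) (by
        rintro x ⟨d, rfl⟩
        exact (isIntegral_jGens d).isAlgebraic)]
    exact h
  obtain ⟨h, hh, P, hP⟩ := exists_clear hmem
  let θ' : FCj N := algebraMap CJ (FCj N) (evalCJ h) * θ
  have hc : evalCJ h ≠ 0 := fun e => hh (by rw [← coe_evalCJ, e]; rfl)
  have hθ' : IntermediateField.adjoin CJ ({θ'} : Set (FCj N)) = ⊤ := by
    rw [eq_top_iff, ← hθ, IntermediateField.adjoin_le_iff, Set.singleton_subset_iff]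
    have e : θ = algebraMap CJ (FCj N) (evalCJ h)⁻¹ * θ' := by
      rw [← mul_assoc, ← map_mul, inv_mul_cancel₀ hc, map_one, one_mul]
    have h2 : algebraMap CJ (FCj N) (evalCJ h)⁻¹ * θ'
        ∈ IntermediateField.adjoin CJ ({θ'} : Set (FCj N)) :=
      mul_mem (IntermediateField.algebraMap_mem _ _)
        (IntermediateField.mem_adjoin_simple_self CJ θ')
    rwa [← e] at h2
  have hval : (θ' : LaurentSeries ℂ) = baseEval N P := by
    rw [hP, ← coe_evalCJ]
    rfl
  have hfin := IntermediateField.adjoin.finrank (IsIntegral.of_finite CJ θ')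
  rw [hθ', IntermediateField.finrank_top'] at hfin
  have hmp : minpoly CJ (θ' : LaurentSeries ℂ) = minpoly CJ θ' :=
    minpoly.algebraMap_eq (algebraMap (FCj N) (LaurentSeries ℂ)).injective θ'
  rw [hfin, ← hmp, hval]
  exact (natDegree_minpoly_baseEval_le P).2

variable (N) in
/-- Forgetting the base field. -/
def toFC : FCj N →+* FC N where
  toFun x := ⟨(x : LaurentSeries ℂ), (IntermediateField.mem_extendScalars (CJ_le N)).mp x.2⟩
  map_one' := Subtype.ext rfl
  map_mul' _ _ := Subtype.ext rfl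
  map_zero' := Subtype.ext rfl
  map_add' _ _ := Subtype.ext rfl

@[simp]
theorem coe_toFC (x : FCj N) : ((toFC N x : FC N) : LaurentSeries ℂ) = (x : LaurentSeries ℂ) := rfl

/-- The embeddings, as maps on `FCj N`. -/
def sigmaRingC (c : CosetIdx N) : FCj N →+* LaurentSeries ℂ :=
  (sigmaC c).toRingHom.comp (toFC N)

/-- `ℂ(j)` in the variable `q ^ (1 / N)`. -/
abbrev baseIncl (N : ℕ) : CJ →+* LaurentSeries ℂ :=
  (qScale ℂ N).comp (algebraMap CJ (LaurentSeries ℂ))

theorem sigmaRingC_algebraMap (c : CosetIdx N) (x : CJ) :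
    sigmaRingC c (algebraMap CJ (FCj N) x) = baseIncl N x := by
  show sigma N c.rep (toFC N (algebraMap CJ (FCj N) x)) = qScale ℂ N (x : LaurentSeries ℂ)
  rw [← sigma_of_mem_CJ c.rep x.2]
  congr 1

variable (N) in
/-- `j (N z)` in `FCj N`. -/
def jNFCj : FCj N :=
  ⟨(jNC N).1, (IntermediateField.mem_extendScalars (CJ_le N)).mpr (jNC N).2⟩

theorem sigmaRingC_jN (c : CosetIdx N) : sigmaRingC c (jNFCj N) = sigmaC c (jNC N) := by
  rw [sigmaRingC, RingHom.comp_apply]
  exact congrArg (sigmaC c) (Subtype.ext rfl)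

theorem sigmaRingC_injective : Function.Injective (sigmaRingC (N := N)) := fun c c' h =>
  sigmaC_jNC_injective
    ((sigmaRingC_jN c).symm.trans ((DFunLike.congr_fun h (jNFCj N)).trans (sigmaRingC_jN c')))

variable (N) in
/-- `[ℂ(j(dz) : d ∣ N) : ℂ(j)] = ψ(N)`. -/
theorem finrank_FCj : Module.finrank CJ (FCj N) = dedekindPsi N := by
  refine le_antisymm finrank_FCj_le ?_
  rw [← card_cosetIdx N]
  exact card_le_finrank_of_injective (baseIncl N) sigmaRingC sigmaRingC_algebraMap
    sigmaRingC_injective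

/-- The characteristic polynomial over `ℂ(j)` is the product over the cosets. -/
theorem charpoly_FCj (y : FCj N) :
    (Algebra.lmul CJ (FCj N) y).charpoly.map (baseIncl N)
      = ∏ c : CosetIdx N, (X - C (sigmaRingC c y)) :=
  charpoly_lmul_eq_prod (baseIncl N) sigmaRingC sigmaRingC_algebraMap sigmaRingC_injective
    (by rw [card_cosetIdx, finrank_FCj]) y

variable (N) in
/-- `j (N z)` generates the function field over `ℂ(j)`. -/
theorem adjoin_jNC_eq_top :
    IntermediateField.adjoin CJ ({jNFCj N} : Set (FCj N)) = ⊤ := by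
  set x : FCj N := jNFCj N with hx
  have hfin := IntermediateField.adjoin.finrank (IsIntegral.of_finite CJ x)
  apply IntermediateField.eq_of_le_of_finrank_le le_top
  rw [IntermediateField.finrank_top', hfin, finrank_FCj, ← card_cosetIdx N]
  classical
  set f := minpoly CJ x
  have hroot : ∀ c : CosetIdx N, (f.map (baseIncl N)).IsRoot (sigmaRingC c x) := fun c => by
    have he : (sigmaRingC c).comp (algebraMap CJ (FCj N)) = baseIncl N :=
      RingHom.ext (sigmaRingC_algebraMap c)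
    rw [Polynomial.IsRoot.def, Polynomial.eval_map, ← he, ← Polynomial.hom_eval₂,
      ← Polynomial.aeval_def, minpoly.aeval, map_zero]
  have hne : f.map (baseIncl N) ≠ 0 :=
    (minpoly.monic (IsIntegral.of_finite CJ x)).map (baseIncl N) |>.ne_zero
  calc Fintype.card (CosetIdx N)
      = (Finset.univ.image fun c => sigmaRingC c x).card := by
        rw [Finset.card_image_of_injective _ (fun c c' h => sigmaC_jNC_injective
          ((sigmaRingC_jN c).symm.trans (h.trans (sigmaRingC_jN c'))))]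
        rfl
    _ ≤ (f.map (baseIncl N)).roots.toFinset.card := by
        refine Finset.card_le_card fun r hr => ?_
        obtain ⟨c, -, rfl⟩ := Finset.mem_image.mp hr
        exact Multiset.mem_toFinset.mpr ((Polynomial.mem_roots hne).mpr (hroot c))
    _ ≤ (f.map (baseIncl N)).natDegree :=
        (Multiset.toFinset_card_le _).trans (Polynomial.card_roots' _)
    _ ≤ f.natDegree := Polynomial.natDegree_map_le

variable (N) in
/-- `[FC N : ℂ (j)] = ψ N`, in the form used by `FLTAgent.Modular.finrank_FC`. -/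
theorem finrank_FC_eq :
    Module.finrank (IntermediateField.adjoin ℂ ({coeffEmb ℂ jq} : Set (LaurentSeries ℂ)))
      ↥(IntermediateField.extendScalars (F := IntermediateField.adjoin ℂ ({coeffEmb ℂ jq} : Set (LaurentSeries ℂ)))
        (E := FC N)
        (IntermediateField.adjoin_le_iff.mpr (Set.singleton_subset_iff.mpr
          (coeffEmb_mem_laurentBaseChange ℂ (modularFunctionField_le_full N (jq_mem N)))))) =
      dedekindPsi N := finrank_FCj N

end FLTAgent.ModularCosets
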