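import Mathlib
import Fermat.Agent.ModularCosets.Degree

/-!
# The degree of the function field of `X₀(N)` over subfields of `ℂ`

For a field `L` with an embedding into `ℂ`: `finrank_FjL` says
`[L (j (d z) : d ∣ N) : L (j)] = ψ(N)` and `adjoin_jNFjL_eq_top` that `j (N z)` generates.
The upper bound is the linear disjointness of `ℂ` and `L((q))` over `L`, the lower bound that the
minimal polynomial of `j (N z)` over `L (j)` is still a relation over `ℂ (j)`.
-/

set_option autoImplicit false
set_option synthInstance.maxHeartbeats 400000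
set_option maxHeartbeats 1000000

noncomputable section

open ModularCurve Polynomial

namespace FLTAgent.ModularCosets

open FLTAgent.Modular

variable (L : Type*) [Field L] (N : ℕ) [NeZero N]

/-- `L (jq)` inside `L((q))`. -/
abbrev JL : IntermediateField L (LaurentSeries L) :=
  IntermediateField.adjoin L ({jqModC L} : Set (LaurentSeries L))

theorem JL_le : JL L ≤ modularFunctionFieldFullC L N :=
  IntermediateField.adjoin_le_iff.mpr (Set.singleton_subset_iff.mpr (jqModC_mem_full L N))

/-- `L (j (d z) : d ∣ N)` over `L (j)`. -/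
abbrev FjL : IntermediateField (JL L) (LaurentSeries L) :=
  IntermediateField.extendScalars (JL_le L N)

variable {L}

theorem smul_laurent {K : Type*} [Field K] (c : K) (x : LaurentSeries K) :
    c • x = algebraMap K (LaurentSeries K) c * x := by
  rw [algebraMap_eq_HC, HahnSeries.C_mul_eq_smul]

section CoeffMap

variable (f : L →+* ℂ)

theorem coeffMap_inj : Function.Injective (coeffMap f) := by
  intro x y h
  ext k
  exact f.injective (congrArg (fun z : LaurentSeries ℂ => z.coeff k) h)

theorem coeffMap_C (c : L) : coeffMap f (HahnSeries.C c) = HahnSeries.C (f c) := coeffMap_single f 0 c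

theorem coeffMap_jGens (d : DivIdx N) : coeffMap f (jGens N L d) = jGens N ℂ d := by
  rw [jGens, jGens, coeffMap_qScale, coeffMap_jqModC]

theorem coeffMap_mem_FC {x : LaurentSeries L} (hx : x ∈ modularFunctionFieldFullC L N) :
    coeffMap f x ∈ FC N := by
  let T : IntermediateField L (LaurentSeries L) :=
    Subfield.toIntermediateField ((FC N).toSubfield.comap (coeffMap f)) fun c => by
      rw [Subfield.mem_comap, algebraMap_eq_HC, coeffMap_C, ← algebraMap_eq_HC]
      exact (FC N).algebraMap_mem _
  have hle : modularFunctionFieldFullC L N ≤ T := by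
    rw [fullC_eq_adjoin, IntermediateField.adjoin_le_iff]
    rintro _ ⟨d, rfl⟩
    show coeffMap f (jGens N L d) ∈ FC N
    rw [coeffMap_jGens]
    exact jGens_mem_FC d
  exact hle hx

/-- `ℂ` and `L((q))` are linearly disjoint over `L`. -/
theorem linearIndependent_coeffMap {ι : Type*} {y : ι → LaurentSeries L}
    (hy : LinearIndependent L y) : LinearIndependent ℂ fun i => coeffMap f (y i) := by
  let := f.toAlgebra
  rw [linearIndependent_iff'] at hy ⊢
  intro s c hc i hi
  refine (Module.forall_dual_apply_eq_zero_iff L (c i)).mp fun φ => ?_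
  refine hy s (fun j => φ (c j)) ?_ i hi
  ext k
  have h := congrArg (fun z : LaurentSeries ℂ => z.coeff k) hc
  simp only [HahnSeries.coeff_sum, smul_laurent, coeff_algebraMap_mul, coeffMap_coeff,
    HahnSeries.coeff_zero] at h ⊢
  rw [← map_zero φ, ← h, map_sum]
  refine Finset.sum_congr rfl fun j _ => ?_
  rw [show c j * f ((y j).coeff k) = (y j).coeff k • c j by
    rw [Algebra.smul_def, mul_comm]; rfl, map_smul, smul_eq_mul, mul_comm]

theorem evalJ_map (p : L[X]) : evalJ (p.map f) = coeffMap f (Polynomial.aeval (jqModC L) p) := by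
  show Polynomial.aeval (jqModC ℂ) (p.map f) = _
  rw [Polynomial.aeval_def, Polynomial.aeval_def, Polynomial.eval₂_map, Polynomial.hom_eval₂,
    coeffMap_jqModC]
  congr 1
  refine RingHom.ext fun c => ?_
  rw [RingHom.comp_apply, RingHom.comp_apply, algebraMap_eq_HC, algebraMap_eq_HC, coeffMap_C]

end CoeffMap

theorem sum_pow_eq_aeval {K : Type*} [Field K] {ι : Type*} (s : Finset ι) (p : ι → K[X]) (m : ℕ)
    (hm : ∀ i ∈ s, (p i).natDegree < m) (y : ι → LaurentSeries K) :
    ∑ x ∈ Finset.range m ×ˢ s, (p x.2).coeff x.1 • (jqModC K ^ x.1 * y x.2)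
      = ∑ i ∈ s, Polynomial.aeval (jqModC K) (p i) * y i := by
  rw [Finset.sum_product, Finset.sum_comm]
  refine Finset.sum_congr rfl fun i hi => ?_
  rw [Polynomial.aeval_eq_sum_range' (hm i hi), Finset.sum_mul]
  simp only [smul_laurent, Algebra.smul_def, mul_assoc]

/-- Independence over `L (j)` gives independence over `L` after multiplying by powers of `j`. -/
theorem linearIndependent_pow_mul {ι : Type*} {y : ι → LaurentSeries L}
    (hy : LinearIndependent (JL L) y) :
    LinearIndependent L fun x : ℕ × ι => jqModC L ^ x.1 * y x.2 := by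
  classical
  rw [linearIndependent_iff']
  intro s c hc x hx
  let p : ι → L[X] := fun i => ∑ w ∈ s.filter (fun w => w.2 = i), monomial w.1 (c w)
  have hz : ∑ i ∈ s.image Prod.snd,
      (⟨Polynomial.aeval (jqModC L) (p i), IntermediateField.algebra_adjoin_le_adjoin _ _
        (Polynomial.aeval_mem_adjoin_singleton _ _)⟩ : JL L) • y i = 0 := by
    rw [← hc, ← Finset.sum_fiberwise_of_maps_to (g := Prod.snd)
      (fun w hw => Finset.mem_image_of_mem _ hw)]
    refine Finset.sum_congr rfl fun i _ => ?_
    show Polynomial.aeval (jqModC L) (p i) * y i = _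
    rw [map_sum, Finset.sum_mul]
    refine Finset.sum_congr rfl fun w hw => ?_
    rw [Polynomial.aeval_monomial, smul_laurent, (Finset.mem_filter.mp hw).2, mul_assoc]
  have h0 := (linearIndependent_iff'.mp hy) _ _ hz x.2 (Finset.mem_image_of_mem _ hx)
  have hp : p x.2 = 0 := aeval_jqModC_injective L (by
    rw [map_zero]; exact congrArg Subtype.val h0)
  have hcoeff := congrArg (fun q : L[X] => q.coeff x.1) hp
  simp only [p, Polynomial.finsetSum_coeff, Polynomial.coeff_monomial, Polynomial.coeff_zero] at hcoeff
  rw [Finset.sum_eq_single x] at hcoeff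
  · rwa [if_pos rfl] at hcoeff
  · intro w hw hne
    rw [if_neg]
    exact fun h => hne (Prod.ext h (Finset.mem_filter.mp hw).2)
  · intro hx'
    exact absurd (Finset.mem_filter.mpr ⟨hx, rfl⟩ : x ∈ s.filter (fun w => w.2 = x.2)) hx'

/-- Conversely, over `ℂ`, independence of all `j ^ n y i` gives independence over `ℂ (j)`. -/
theorem linearIndependent_CJ_of_pow {ι : Type*} {y : ι → LaurentSeries ℂ}
    (hy : LinearIndependent ℂ fun x : ℕ × ι => jqModC ℂ ^ x.1 * y x.2) :
    LinearIndependent CJ y := by
  classical
  rw [linearIndependent_iff']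
  intro s a ha i hi
  have hdiv : ∀ i, ∃ p r : ℂ[X], evalJ r ≠ 0 ∧ (a i : LaurentSeries ℂ) = evalJ p / evalJ r :=
    fun i => exists_evalJ_div (a i).2
  choose p r hr hpr using hdiv
  let P : ι → ℂ[X] := fun i => p i * ∏ j ∈ s.erase i, r j
  have hP : ∀ i ∈ s, evalJ (P i) = (∏ j ∈ s, evalJ (r j)) * (a i : LaurentSeries ℂ) := by
    intro i hi
    rw [map_mul, map_prod, ← Finset.mul_prod_erase s _ hi, hpr i]
    have hri := hr i
    field_simp
  have hsum : ∑ i ∈ s, evalJ (P i) * y i = 0 := by
    rw [Finset.sum_congr rfl fun i hi => by rw [hP i hi, mul_assoc], ← Finset.mul_sum]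
    have : ∑ i ∈ s, (a i : LaurentSeries ℂ) * y i = 0 := ha
    rw [this, mul_zero]
  set m := s.sup (fun i => (P i).natDegree) + 1
  have hm : ∀ i ∈ s, (P i).natDegree < m := fun i hi =>
    Nat.lt_succ_of_le (Finset.le_sup (f := fun i => (P i).natDegree) hi)
  have hc : ∑ x ∈ Finset.range m ×ˢ s, (P x.2).coeff x.1 • (jqModC ℂ ^ x.1 * y x.2) = 0 :=
    (sum_pow_eq_aeval s P m hm y).trans hsum
  have hP0 : P i = 0 := by
    ext n
    rw [Polynomial.coeff_zero]
    rcases lt_or_ge n m with hn | hn
    · exact (linearIndependent_iff'.mp hy) _ _ hc (n, i)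
        (Finset.mem_product.mpr ⟨Finset.mem_range.mpr hn, hi⟩)
    · exact Polynomial.coeff_eq_zero_of_natDegree_lt (lt_of_lt_of_le (hm i hi) hn)
  have h := hP i hi
  rw [hP0, map_zero] at h
  exact Subtype.ext ((mul_eq_zero.mp h.symm).resolve_left
    (Finset.prod_ne_zero_iff.mpr fun j _ => hr j))

variable (f : L →+* ℂ)

include f in
theorem card_le_of_linearIndependent {ι : Type*} [Fintype ι] {y : ι → FjL L N}
    (hy : LinearIndependent (JL L) y) : Fintype.card ι ≤ dedekindPsi N := by
  have h0 : LinearIndependent (JL L) fun i => (y i : LaurentSeries L) :=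
    hy.map' (FjL L N).val.toLinearMap
      (LinearMap.ker_eq_bot.mpr Subtype.coe_injective)
  have h1 := linearIndependent_coeffMap f (linearIndependent_pow_mul h0)
  have h2 : LinearIndependent CJ fun i => coeffMap f (y i : LaurentSeries L) := by
    refine linearIndependent_CJ_of_pow ?_
    simpa only [map_mul, map_pow, coeffMap_jqModC] using h1
  let z : ι → FCj N := fun i => ⟨coeffMap f (y i : LaurentSeries L),
    (IntermediateField.mem_extendScalars (CJ_le N)).mpr
      (coeffMap_mem_FC N f ((IntermediateField.mem_extendScalars (JL_le L N)).mp (y i).2))⟩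
  have h3 : LinearIndependent CJ z :=
    LinearIndependent.of_comp (FCj N).val.toLinearMap h2
  rw [← finrank_FCj N]
  exact h3.fintype_card_le_finrank

include f in
theorem rank_FjL_le : Module.rank (JL L) (FjL L N) ≤ (dedekindPsi N : Cardinal) :=
  rank_le fun s hs => by
    have := card_le_of_linearIndependent (ι := ↥s) N f hs
    simpa using this

include f in
theorem finiteDimensional_FjL : FiniteDimensional (JL L) (FjL L N) :=
  Module.rank_lt_aleph0_iff.mp (lt_of_le_of_lt (rank_FjL_le N f) Cardinal.natCast_lt_aleph0)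

include f in
/-- The minimal polynomial of `j (N z)` over `L (j)` has degree at least `ψ N`. -/
theorem le_natDegree_minpoly_jN {x : FjL L N}
    (hx : (x : LaurentSeries L) = jGens N L (topDiv N)) (hint : IsIntegral (JL L) x) :
    dedekindPsi N ≤ (minpoly (JL L) x).natDegree := by
  have hg : ∀ a : JL L, coeffMap f (a : LaurentSeries L) ∈ CJ := by
    intro a
    obtain ⟨p, r, he⟩ := (IntermediateField.mem_adjoin_simple_iff _ _).mp a.2
    rw [he, map_div₀, ← evalJ_map, ← evalJ_map, ← coe_evalCJ, ← coe_evalCJ]
    exact div_mem (SetLike.coe_mem _) (SetLike.coe_mem _)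
  let g : JL L →+* CJ :=
    ((coeffMap f).comp (algebraMap (JL L) (LaurentSeries L))).codRestrict CJ hg
  set P := (minpoly (JL L) x).map g
  have hP : Polynomial.aeval ((jNC N : FC N) : LaurentSeries ℂ) P = 0 := by
    rw [Polynomial.aeval_def, Polynomial.eval₂_map,
      show (algebraMap CJ (LaurentSeries ℂ)).comp g
        = (coeffMap f).comp (algebraMap (JL L) (LaurentSeries L)) from RingHom.ext fun _ => rfl,
      show ((jNC N : FC N) : LaurentSeries ℂ) = coeffMap f (x : LaurentSeries L) by
        rw [hx, coeffMap_jGens]; rfl,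
      ← Polynomial.hom_eval₂]
    have h0 := congrArg (algebraMap (FjL L N) (LaurentSeries L)) (minpoly.aeval (JL L) x)
    rw [← Polynomial.aeval_algebraMap_apply, map_zero, Polynomial.aeval_def] at h0
    rw [show (x : LaurentSeries L) = algebraMap (FjL L N) (LaurentSeries L) x from rfl, h0, map_zero]
  have hfin := IntermediateField.adjoin.finrank (IsIntegral.of_finite CJ (jNFCj N))
  rw [adjoin_jNC_eq_top, IntermediateField.finrank_top', finrank_FCj] at hfin
  rw [hfin, ← minpoly.algebraMap_eq (algebraMap (FCj N) (LaurentSeries ℂ)).injective (jNFCj N)]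
  exact (natDegree_le_of_dvd
    (minpoly.dvd CJ ((jNC N : FC N) : LaurentSeries ℂ) hP)
    ((minpoly.monic hint).map g).ne_zero).trans Polynomial.natDegree_map_le

variable (L) in
/-- `j (N z)` in `FjL`. -/
def jNFjL : FjL L N :=
  ⟨jGens N L (topDiv N), (IntermediateField.mem_extendScalars (JL_le L N)).mpr (by
    rw [fullC_eq_adjoin]; exact IntermediateField.subset_adjoin _ _ ⟨topDiv N, rfl⟩)⟩

include f in
/-- `[L (j (d z)) : L (j)] = ψ N`. -/
theorem finrank_FjL : Module.finrank (JL L) (FjL L N) = dedekindPsi N := by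
  have := finiteDimensional_FjL N f
  refine le_antisymm (Module.finrank_le_of_rank_le (rank_FjL_le N f)) ?_
  exact (le_natDegree_minpoly_jN N f (x := jNFjL L N) rfl (IsIntegral.of_finite _ _)).trans
    (minpoly.natDegree_le _)

include f in
/-- `j (N z)` generates over `L (j)`. -/
theorem adjoin_jNFjL_eq_top :
    IntermediateField.adjoin (JL L) ({jNFjL L N} : Set (FjL L N)) = ⊤ := by
  have := finiteDimensional_FjL N f
  apply IntermediateField.eq_of_le_of_finrank_le le_top
  rw [IntermediateField.finrank_top', finrank_FjL N f,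
    IntermediateField.adjoin.finrank (IsIntegral.of_finite _ _)]
  exact le_natDegree_minpoly_jN N f rfl (IsIntegral.of_finite _ _)

end FLTAgent.ModularCosets
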