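import Mathlib
import Fermat.Prelude.Def_ModularCurve_HeckeOperator
import Fermat.Agent.ModularCosets.Descent

/-!
# The Fricke involution and the degrees of the degeneracy maps

`frickeL` is `y (z) ↦ y (-1 / (N z))` on `L (j (d z) : d ∣ N)`; it exchanges `j` and `j (N z)`,
so the field also has degree `ψ(N)` over `L (j (N z))` (`relfinrank_top_fullC`). By multiplicativity
of degrees `finrankAlong_heckeAlphaBar` and `finrankAlong_heckeBetaBar`: both degeneracy
embeddings from level `N` to level `N ℓ`, `ℓ` prime, have degree `ℓ + 1`, or `ℓ` if `ℓ ∣ N`.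
-/

set_option autoImplicit false
set_option synthInstance.maxHeartbeats 400000
set_option maxHeartbeats 1000000

noncomputable section

open ModularCurve IntermediateField AlgebraicCurve
open scoped MatrixGroups

namespace FLTAgent.ModularCosets

open FLTAgent.Modular

variable (N : ℕ) [NeZero N]

/-- The divisor `N / d`. -/
def coDiv (d : DivIdx N) : DivIdx N :=
  ⟨N / d, Nat.mem_divisors.mpr ⟨Nat.div_dvd_of_dvd d.dvd, NeZero.ne N⟩⟩

theorem coDiv_coDiv (d : DivIdx N) : coDiv N (coDiv N d) = d :=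
  Subtype.ext (Nat.div_div_self d.dvd (NeZero.ne N))

theorem coDiv_topDiv : coDiv N (topDiv N) = oneDiv N :=
  Subtype.ext (Nat.div_self (Nat.pos_of_ne_zero (NeZero.ne N)))

theorem coe_modular_S : (ModularGroup.S : Matrix (Fin 2) (Fin 2) ℤ) = !![0, -1; 1, 0] := rfl

theorem jSer_S (d : DivIdx N) : jSer N ModularGroup.S d = jGens N ℂ (coDiv N d) := by
  have he : diagOne ((d : ℕ) : ℤ) * (ModularGroup.S : Matrix (Fin 2) (Fin 2) ℤ)
      = (ModularGroup.S : Matrix (Fin 2) (Fin 2) ℤ)
        * upperTri ((1 : ℕ) : ℤ) ((0 : ℕ) : ℤ) (((d : ℕ) : ℕ) : ℤ) := by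
    rw [coe_modular_S]
    ext i j
    fin_cases i <;> fin_cases j <;> simp [diagOne, upperTri, Matrix.mul_apply, Fin.sum_univ_two]
  rw [jSer_eq N ModularGroup.S d
      ⟨ModularGroup.S, 1, 0, d, Nat.one_mul _, Nat.pos_of_mem_divisors d.2, he⟩,
    cuspExp_apply, jGens, Nat.one_mul, Nat.cast_zero, zero_mul, zpow_zero, twist_one]
  rfl

theorem sigma_S_mem (y : FC N) : sigma N ModularGroup.S y ∈ FC N := by
  have key : ∀ P : MvPolynomial (DivIdx N) ℂ, serEval N ModularGroup.S P ∈ FC N := by
    intro P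
    induction P using MvPolynomial.induction_on with
    | C c =>
      rw [serEval, MvPolynomial.aeval_C]
      exact (FC N).algebraMap_mem c
    | add P Q hP hQ => rw [map_add]; exact add_mem hP hQ
    | mul_X P d hP =>
      rw [map_mul, serEval, MvPolynomial.aeval_X, jSer_S]
      exact mul_mem hP (jGens_mem_FC _)
  obtain ⟨P, Q, -, h⟩ := exists_baseEval_div y
  rw [sigma_eq_div _ h]
  exact div_mem (key P) (key Q)

/-- `y (z) ↦ y (-1 / (N z))` on expansions. -/
def fricke : FC N →ₐ[ℂ] FC N := (sigma N ModularGroup.S).codRestrict _ (sigma_S_mem N)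

theorem coe_fricke (y : FC N) :
    ((fricke N y : FC N) : LaurentSeries ℂ) = sigma N ModularGroup.S y := rfl

theorem fricke_jGens (d : DivIdx N) :
    fricke N ⟨jGens N ℂ d, jGens_mem_FC d⟩ = ⟨jGens N ℂ (coDiv N d), jGens_mem_FC _⟩ := by
  apply Subtype.ext
  rw [coe_fricke, sigma_jGens, jSer_S]

/-! ### Over subfields of `ℂ` -/

variable (L : Type*) [Field L]

theorem jGens_mem_fullC (d : DivIdx N) : jGens N L d ∈ modularFunctionFieldFullC L N := by
  rw [fullC_eq_adjoin]
  exact subset_adjoin _ _ ⟨d, rfl⟩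

variable {L} (f : L →+* ℂ)

theorem exists_frickeL (x : modularFunctionFieldFullC L N) :
    ∃ y : modularFunctionFieldFullC L N, coeffMap f (y : LaurentSeries L)
      = sigma N ModularGroup.S ⟨coeffMap f (x : LaurentSeries L), coeffMap_mem_FC N f x.2⟩ := by
  let ι : modularFunctionFieldFullC L N →+* FC N :=
    ((coeffMap f).comp (algebraMap (modularFunctionFieldFullC L N) (LaurentSeries L))).codRestrict
      (FC N) fun x => coeffMap_mem_FC N f x.2
  let φ : modularFunctionFieldFullC L N →+* LaurentSeries ℂ :=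
    (sigma N ModularGroup.S).toRingHom.comp ι
  let R : Subfield (LaurentSeries ℂ) :=
    (modularFunctionFieldFullC L N).toSubfield.map (coeffMap f)
  show ∃ y : modularFunctionFieldFullC L N, coeffMap f (y : LaurentSeries L) = φ x
  suffices h : φ x ∈ R by
    obtain ⟨y, hy, he⟩ := Subfield.mem_map.mp h
    exact ⟨⟨y, hy⟩, he⟩
  obtain ⟨x, hx⟩ := x
  have hx' : x ∈ IntermediateField.adjoin L (Set.range (jGens N L)) := by
    rw [← fullC_eq_adjoin]; exact hx
  induction hx' using IntermediateField.adjoin_induction with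
  | mem a ha =>
    obtain ⟨d, rfl⟩ := ha
    refine Subfield.mem_map.mpr ⟨jGens N L (coDiv N d), jGens_mem_fullC N L _, ?_⟩
    have h : ι ⟨jGens N L d, hx⟩ = ⟨jGens N ℂ d, jGens_mem_FC d⟩ :=
      Subtype.ext (coeffMap_jGens N f d)
    show _ = sigma N ModularGroup.S (ι ⟨jGens N L d, hx⟩)
    rw [h, sigma_jGens, jSer_S, coeffMap_jGens]
  | algebraMap c =>
    refine Subfield.mem_map.mpr ⟨algebraMap L (LaurentSeries L) c,
      (modularFunctionFieldFullC L N).algebraMap_mem c, ?_⟩
    have h : ι ⟨algebraMap L (LaurentSeries L) c, hx⟩ = algebraMap ℂ (FC N) (f c) :=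
      Subtype.ext (by
        show coeffMap f (algebraMap L (LaurentSeries L) c) = algebraMap ℂ (LaurentSeries ℂ) (f c)
        rw [algebraMap_eq_HC, algebraMap_eq_HC, coeffMap_C])
    show _ = sigma N ModularGroup.S (ι ⟨algebraMap L (LaurentSeries L) c, hx⟩)
    rw [h, AlgHom.commutes, algebraMap_eq_HC, algebraMap_eq_HC, coeffMap_C]
  | add a b ha hb iha ihb =>
    rw [← fullC_eq_adjoin] at ha hb
    have h := R.add_mem (iha ha) (ihb hb)
    rwa [← map_add] at h
  | inv a ha iha =>
    rw [← fullC_eq_adjoin] at ha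
    have h := R.inv_mem (iha ha)
    rwa [← map_inv₀] at h
  | mul a b ha hb iha ihb =>
    rw [← fullC_eq_adjoin] at ha hb
    have h := R.mul_mem (iha ha) (ihb hb)
    rwa [← map_mul] at h

/-- The Fricke automorphism over `L`. -/
def frickeL : modularFunctionFieldFullC L N →ₐ[L] modularFunctionFieldFullC L N where
  toFun x := (exists_frickeL N f x).choose
  map_one' := Subtype.ext <| coeffMap_inj f <| by
    rw [(exists_frickeL N f 1).choose_spec]
    have h : (⟨coeffMap f ((1 : modularFunctionFieldFullC L N) : LaurentSeries L),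
        coeffMap_mem_FC N f (1 : modularFunctionFieldFullC L N).2⟩ : FC N) = 1 :=
      Subtype.ext (map_one (coeffMap f))
    rw [h, map_one]
    exact (map_one (coeffMap f)).symm
  map_mul' x y := Subtype.ext <| coeffMap_inj f <| by
    rw [(exists_frickeL N f _).choose_spec]
    push_cast
    rw [map_mul (coeffMap f) (Subtype.val (exists_frickeL N f x).choose), (exists_frickeL N f x).choose_spec,
      (exists_frickeL N f y).choose_spec, ← map_mul (sigma N ModularGroup.S)]
    congr 1
    exact Subtype.ext (map_mul (coeffMap f) _ _)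
  map_zero' := Subtype.ext <| coeffMap_inj f <| by
    rw [(exists_frickeL N f 0).choose_spec]
    have h : (⟨coeffMap f ((0 : modularFunctionFieldFullC L N) : LaurentSeries L),
        coeffMap_mem_FC N f (0 : modularFunctionFieldFullC L N).2⟩ : FC N) = 0 :=
      Subtype.ext (map_zero (coeffMap f))
    rw [h, map_zero]
    exact (map_zero (coeffMap f)).symm
  map_add' x y := Subtype.ext <| coeffMap_inj f <| by
    rw [(exists_frickeL N f _).choose_spec]
    push_cast
    rw [map_add (coeffMap f) (Subtype.val (exists_frickeL N f x).choose), (exists_frickeL N f x).choose_spec,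
      (exists_frickeL N f y).choose_spec, ← map_add (sigma N ModularGroup.S)]
    congr 1
    exact Subtype.ext (map_add (coeffMap f) _ _)
  commutes' c := Subtype.ext <| coeffMap_inj f <| by
    rw [(exists_frickeL N f _).choose_spec]
    have h : (⟨coeffMap f ((algebraMap L (modularFunctionFieldFullC L N) c :
        modularFunctionFieldFullC L N) : LaurentSeries L), coeffMap_mem_FC N f
          (algebraMap L (modularFunctionFieldFullC L N) c).2⟩ : FC N) = algebraMap ℂ (FC N) (f c) :=
      Subtype.ext (by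
        show coeffMap f (algebraMap L (LaurentSeries L) c) = algebraMap ℂ (LaurentSeries ℂ) (f c)
        rw [algebraMap_eq_HC, algebraMap_eq_HC, coeffMap_C])
    rw [h, AlgHom.commutes, algebraMap_eq_HC]
    show _ = coeffMap f (algebraMap L (LaurentSeries L) c)
    rw [algebraMap_eq_HC, coeffMap_C]

theorem coeffMap_frickeL (x : modularFunctionFieldFullC L N) :
    coeffMap f (frickeL N f x : LaurentSeries L)
      = sigma N ModularGroup.S ⟨coeffMap f (x : LaurentSeries L), coeffMap_mem_FC N f x.2⟩ :=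
  (exists_frickeL N f x).choose_spec

theorem frickeL_jGens (d : DivIdx N) :
    frickeL N f ⟨jGens N L d, jGens_mem_fullC N L d⟩
      = ⟨jGens N L (coDiv N d), jGens_mem_fullC N L _⟩ := by
  refine Subtype.ext (coeffMap_inj f ?_)
  rw [coeffMap_frickeL,
    show (⟨coeffMap f (jGens N L d), _⟩ : FC N) = ⟨jGens N ℂ d, jGens_mem_FC d⟩ from
      Subtype.ext (coeffMap_jGens N f d), sigma_jGens, jSer_S, coeffMap_jGens]

theorem frickeL_frickeL (x : modularFunctionFieldFullC L N) :
    frickeL N f (frickeL N f x) = x := by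
  obtain ⟨x, hx⟩ := x
  have hx' : x ∈ IntermediateField.adjoin L (Set.range (jGens N L)) := by
    rw [← fullC_eq_adjoin]; exact hx
  induction hx' using IntermediateField.adjoin_induction with
  | mem a ha =>
    obtain ⟨d, rfl⟩ := ha
    rw [frickeL_jGens, frickeL_jGens]
    exact Subtype.ext (by rw [coDiv_coDiv])
  | algebraMap c =>
    rw [show (⟨algebraMap L (LaurentSeries L) c, hx⟩ : modularFunctionFieldFullC L N)
      = algebraMap L (modularFunctionFieldFullC L N) c from rfl, AlgHom.commutes, AlgHom.commutes]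
  | add a b ha hb iha ihb =>
    rw [← fullC_eq_adjoin] at ha hb
    rw [show (⟨a + b, hx⟩ : modularFunctionFieldFullC L N) = ⟨a, ha⟩ + ⟨b, hb⟩ from rfl,
      map_add, map_add, iha, ihb]
  | inv a ha iha =>
    rw [← fullC_eq_adjoin] at ha
    rw [show (⟨a⁻¹, hx⟩ : modularFunctionFieldFullC L N) = (⟨a, ha⟩)⁻¹ from rfl,
      map_inv₀, map_inv₀, iha]
  | mul a b ha hb iha ihb =>
    rw [← fullC_eq_adjoin] at ha hb
    rw [show (⟨a * b, hx⟩ : modularFunctionFieldFullC L N) = ⟨a, ha⟩ * ⟨b, hb⟩ from rfl,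
      map_mul, map_mul, iha, ihb]

/-! ### Degrees -/

variable (L)

/-- `L (j (d z))`. -/
abbrev JdL (d : ℕ) : IntermediateField L (LaurentSeries L) :=
  IntermediateField.adjoin L ({qScale L d (jqModC L)} : Set (LaurentSeries L))

omit [NeZero N] in
theorem relfinrank_JL_fullC {M : ℕ} [NeZero M] (f : L →+* ℂ) :
    relfinrank (JL L) (modularFunctionFieldFullC L M) = dedekindPsi M := by
  rw [relfinrank_eq_finrank_of_le (JL_le L M)]
  exact finrank_FjL M f

omit [NeZero N] in
/-- The degree of the degeneracy inclusion. -/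
theorem relfinrank_fullC_mul {M M' : ℕ} [NeZero M] [NeZero M'] (f : L →+* ℂ) (h : M ∣ M') :
    relfinrank (modularFunctionFieldFullC L M) (modularFunctionFieldFullC L M') * dedekindPsi M
      = dedekindPsi M' := by
  rw [← relfinrank_JL_fullC L f, ← relfinrank_JL_fullC L f, mul_comm]
  exact relfinrank_mul_relfinrank (JL_le L M) (full_degeneracyC_le L h)

omit [NeZero N] in
theorem qExpand_mem_fullC {M d : ℕ} [NeZero M] [NeZero d] (h : d ∣ M) :
    qScale L d (jqModC L) ∈ modularFunctionFieldFullC L M := by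
  rw [qScale_eq]
  exact jqModCd_mem_full L M h

/-- `[L (j (d z) : d ∣ N) : L (j (N z))] = ψ N`. -/
theorem relfinrank_top_fullC (f : L →+* ℂ) :
    relfinrank (JdL L N) (modularFunctionFieldFullC L N) = dedekindPsi N := by
  set E := modularFunctionFieldFullC L N
  let φ : E →ₐ[L] LaurentSeries L := E.val.comp (frickeL N f)
  have h1 : (IntermediateField.adjoin L ({⟨jGens N L (topDiv N), jGens_mem_fullC N L _⟩} : Set E)).map
      E.val = JdL L N := by
    rw [adjoin_map, Set.image_singleton]
    rfl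
  have h2 : (IntermediateField.adjoin L ({⟨jGens N L (topDiv N), jGens_mem_fullC N L _⟩} : Set E)).map
      φ = JL L := by
    rw [adjoin_map, Set.image_singleton]
    show IntermediateField.adjoin L ({((frickeL N f ⟨jGens N L (topDiv N), _⟩ : E) :
      LaurentSeries L)} : Set (LaurentSeries L)) = JL L
    rw [frickeL_jGens, coDiv_topDiv]
    show IntermediateField.adjoin L ({qScale L 1 (jqModC L)} : Set (LaurentSeries L)) = JL L
    rw [qScale_one]
  have h3 : (⊤ : IntermediateField L E).map φ = E := by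
    rw [← AlgHom.fieldRange_eq_map]
    apply le_antisymm
    · rintro x ⟨y, rfl⟩
      exact (frickeL N f y).2
    · intro x hx
      refine ⟨frickeL N f ⟨x, hx⟩, ?_⟩
      show ((frickeL N f (frickeL N f ⟨x, hx⟩) : E) : LaurentSeries L) = x
      rw [frickeL_frickeL]
  have h4 : (⊤ : IntermediateField L E).map E.val = E := by
    rw [← AlgHom.fieldRange_eq_map, fieldRange_val]
  calc relfinrank (JdL L N) E
      = relfinrank
          (IntermediateField.adjoin L ({⟨jGens N L (topDiv N), jGens_mem_fullC N L _⟩} : Set E)) ⊤ := by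
        conv_lhs => rw [← h4, ← h1]
        rw [relfinrank_map_map]
    _ = relfinrank (JL L) E := by
        conv_rhs => rw [← h3, ← h2]
        rw [relfinrank_map_map]
    _ = dedekindPsi N := relfinrank_JL_fullC L f

omit [NeZero N] in
/-- `[L (j (d z) : d ∣ M) : L (j (d₀ z))] = ψ M` for `d₀ ∣ M`. -/
theorem relfinrank_JdL_fullC {M d : ℕ} [NeZero M] [NeZero d] (f : L →+* ℂ) (h : d ∣ M) :
    relfinrank (JdL L d) (modularFunctionFieldFullC L M) = dedekindPsi M := by
  rw [← relfinrank_mul_relfinrank (B := modularFunctionFieldFullC L d)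
      (adjoin_le_iff.mpr (Set.singleton_subset_iff.mpr (qExpand_mem_fullC L dvd_rfl)))
      (full_degeneracyC_le L h), relfinrank_top_fullC d L f, mul_comm]
  exact relfinrank_fullC_mul L f h

omit [NeZero N] in
theorem relfinrank_qExpand_fullC {M : ℕ} (ℓ : ℕ) [NeZero M] [NeZero ℓ] (f : L →+* ℂ) :
    relfinrank ((modularFunctionFieldFullC L M).map (qExpandAlgHomC L ℓ))
        (modularFunctionFieldFullC L (M * ℓ)) * dedekindPsi M = dedekindPsi (M * ℓ) := by
  have h1 : (JL L).map (qExpandAlgHomC L ℓ) = JdL L ℓ := by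
    rw [adjoin_map, Set.image_singleton, qExpandAlgHomC_apply, ← qScale_eq]
  have h2 : relfinrank (JdL L ℓ) ((modularFunctionFieldFullC L M).map (qExpandAlgHomC L ℓ))
      = dedekindPsi M := by
    rw [← h1, relfinrank_map_map]
    exact relfinrank_JL_fullC L f
  rw [← relfinrank_JdL_fullC (M := M * ℓ) (d := ℓ) L f (dvd_mul_left _ _), ← h2, mul_comm]
  refine relfinrank_mul_relfinrank ?_ (full_degeneracyC_map_le L M ℓ)
  rw [← h1]
  exact map_mono _ (JL_le L M)

omit [NeZero N] in
theorem finrankAlong_eq_relfinrank {K Ω : Type*} [Field K] [Field Ω] [Algebra K Ω]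
    {E₁ E₂ : IntermediateField K Ω} (φ : E₁ →ₐ[K] E₂) {A : IntermediateField K Ω}
    (ψ : E₁ ≃ₐ[K] A) (hA : A ≤ E₂) (hφ : ∀ x, ((φ x : E₂) : Ω) = ((ψ x : A) : Ω)) :
    finrankAlong K φ = relfinrank A E₂ := by
  rw [relfinrank_eq_finrank_of_le hA, finrankAlong]
  let := algebraAlong φ
  refine Algebra.finrank_eq_of_equiv_equiv ψ.toRingEquiv
    ({ toFun := fun x => ⟨(x : Ω), (mem_extendScalars hA).mpr x.2⟩
       invFun := fun x => ⟨(x : Ω), (mem_extendScalars hA).mp x.2⟩
       left_inv := fun _ => rfl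
       right_inv := fun _ => rfl
       map_mul' := fun _ _ => rfl
       map_add' := fun _ _ => rfl } : E₂ ≃+* IntermediateField.extendScalars hA) ?_
  ext x
  exact congrArg (fun t => t) (hφ x).symm

section Bar

variable [Algebra ℚ L] (ℓ : ℕ) [NeZero ℓ]

theorem finrankAlong_heckeAlphaBar_mul (f : L →+* ℂ) :
    finrankAlong L (heckeAlphaBar L N ℓ) * dedekindPsi N = dedekindPsi (N * ℓ) := by
  have hN := laurentBaseChange_full N L
  have hM := laurentBaseChange_full (N * ℓ) L
  rw [finrankAlong_eq_relfinrank (A := modularFunctionFieldFullC L N)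
    (heckeAlphaBar L N ℓ) (equivOfEq hN)
    (by rw [hM]; exact full_degeneracyC_le L (dvd_mul_right N ℓ)) (fun x => coe_heckeAlphaBar N ℓ x),
    hM]
  exact relfinrank_fullC_mul L f (dvd_mul_right N ℓ)

theorem finrankAlong_heckeBetaBar_mul (f : L →+* ℂ) :
    finrankAlong L (heckeBetaBar L N ℓ) * dedekindPsi N = dedekindPsi (N * ℓ) := by
  have hN := laurentBaseChange_full N L
  have hM := laurentBaseChange_full (N * ℓ) L
  rw [finrankAlong_eq_relfinrank (A := (modularFunctionFieldFullC L N).map (qExpandAlgHomC L ℓ))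
    (heckeBetaBar L N ℓ)
    ((equivOfEq hN).trans (equivMap (modularFunctionFieldFullC L N) (qExpandAlgHomC L ℓ)))
    (by rw [hM]; exact full_degeneracyC_map_le L N ℓ) (fun x => rfl), hM]
  exact relfinrank_qExpand_fullC L ℓ f

/-- For `ℓ` prime: `ℓ + 1`, resp. `ℓ` if `ℓ ∣ N`. -/
theorem finrankAlong_heckeAlphaBar (f : L →+* ℂ) (hℓ : ℓ.Prime) :
    finrankAlong L (heckeAlphaBar L N ℓ) = if ℓ ∣ N then ℓ else ℓ + 1 :=
  Nat.eq_of_mul_eq_mul_right (dedekindPsi_pos N)
    ((finrankAlong_heckeAlphaBar_mul N L ℓ f).trans (dedekindPsi_mul_prime N hℓ))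

/-- For `ℓ` prime: `ℓ + 1`, resp. `ℓ` if `ℓ ∣ N`. -/
theorem finrankAlong_heckeBetaBar (f : L →+* ℂ) (hℓ : ℓ.Prime) :
    finrankAlong L (heckeBetaBar L N ℓ) = if ℓ ∣ N then ℓ else ℓ + 1 :=
  Nat.eq_of_mul_eq_mul_right (dedekindPsi_pos N)
    ((finrankAlong_heckeBetaBar_mul N L ℓ f).trans (dedekindPsi_mul_prime N hℓ))

end Bar

/-- An embedding of `ℚ̄` into `ℂ`. -/
def iotaBar : AlgebraicClosure ℚ →+* ℂ :=
  haveI : Algebra.IsAlgebraic ℚ (AlgebraicClosure ℚ) := AlgebraicClosure.isAlgebraic ℚ
  ((IsAlgClosed.lift : AlgebraicClosure ℚ →ₐ[ℚ] ℂ)).toRingHom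

end FLTAgent.ModularCosets
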