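import Mathlib
import Fermat.Agent.ModularCosets.HeckeDegree

/-!
# Degrees and generation for the fields of the Prelude

The results of `ModularCosets` restated for `modularFunctionFieldFull N`, its base changes,
`FC N` and `modularFunctionFieldBar N`: degree `ψ(N)` over the field of `j`
(`finrank_baseChange_over_j`, `relfinrank_rat_full`), generation by `j` and `j (N z)`
(`functionFieldGeneration_all`), and the degrees of the two degeneracy maps over `ℚ̄`
(`finrankAlong_alphaBar`, `finrankAlong_betaBar`).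
-/

set_option autoImplicit false
set_option synthInstance.maxHeartbeats 400000
set_option maxHeartbeats 1000000

noncomputable section

open ModularCurve IntermediateField AlgebraicCurve

namespace FLTAgent.ModularCosets

open FLTAgent.Modular

theorem finrank_adjoin_elem {K Ω : Type*} [Field K] [Field Ω] [Algebra K Ω]
    (F : IntermediateField K Ω) (x : F) :
    Module.finrank (IntermediateField.adjoin K ({x} : Set F)) F
      = relfinrank (IntermediateField.adjoin K ({(x : Ω)} : Set Ω)) F := by
  have h1 : (IntermediateField.adjoin K ({x} : Set F)).map F.val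
      = IntermediateField.adjoin K ({(x : Ω)} : Set Ω) := by
    rw [adjoin_map, Set.image_singleton]
    rfl
  have h2 : (⊤ : IntermediateField K F).map F.val = F := by
    rw [← AlgHom.fieldRange_eq_map, fieldRange_val]
  rw [← relfinrank_top_right, ← relfinrank_map_map (IntermediateField.adjoin K ({x} : Set F)) ⊤ F.val,
    h1, h2]

variable (N : ℕ) [NeZero N]

/-- `[L (j (d z)) : L (j)] = ψ N` for the element `j` of the base change. -/
theorem finrank_baseChange_over_j (L : Type*) [Field L] [Algebra ℚ L] (f : L →+* ℂ)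
    (x : laurentBaseChange L (modularFunctionFieldFull N))
    (hx : (x : LaurentSeries L) = coeffEmb L jq) :
    Module.finrank (IntermediateField.adjoin L
        ({x} : Set (laurentBaseChange L (modularFunctionFieldFull N))))
      (laurentBaseChange L (modularFunctionFieldFull N)) = dedekindPsi N := by
  rw [finrank_adjoin_elem, hx, coeffEmb_jq_eq, laurentBaseChange_full]
  exact relfinrank_JL_fullC L f

/-- `[FC N : ℂ (j)] = ψ N`. -/
theorem finrank_FC_over_j (x : FC N) (hx : (x : LaurentSeries ℂ) = coeffEmb ℂ jq) :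
    Module.finrank (IntermediateField.adjoin ℂ ({x} : Set (FC N))) (FC N) = dedekindPsi N :=
  finrank_baseChange_over_j N ℂ (RingHom.id ℂ) x hx

/-- `[modularFunctionFieldBar N : ℚ̄ (j)] = ψ N`. -/
theorem finrank_bar_over_j (x : modularFunctionFieldBar N)
    (hx : (x : LaurentSeries (AlgebraicClosure ℚ)) = coeffEmb (AlgebraicClosure ℚ) jq) :
    Module.finrank
      (IntermediateField.adjoin (AlgebraicClosure ℚ) ({x} : Set (modularFunctionFieldBar N)))
      (modularFunctionFieldBar N) = dedekindPsi N :=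
  finrank_baseChange_over_j N (AlgebraicClosure ℚ) iotaBar x hx

/-- `[ℚ (j (d z)) : ℚ (j)] = ψ N`. -/
theorem relfinrank_rat_full :
    relfinrank (IntermediateField.adjoin ℚ ({jq} : Set (LaurentSeries ℚ))) (modularFunctionFieldFull N)
      = dedekindPsi N := by
  rw [← modularFunctionFieldFullC_rat, ← jqModC_rat]
  exact relfinrank_JL_fullC ℚ (Rat.castHom ℂ)

/-- Each `j (d z)` is algebraic over `ℚ (j)`. -/
theorem isAlgebraic_rat_jq {d : ℕ} [NeZero d] (hd : d ∣ N) :
    IsAlgebraic ℚ⟮jq⟯ (qExpand ℚ d jq) := by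
  have := finiteDimensional_FjL (L := ℚ) N (Rat.castHom ℂ)
  have hmem : qExpand ℚ d jq ∈ FjL ℚ N :=
    (mem_extendScalars (JL_le ℚ N)).mpr (jqModCd_mem_full ℚ N hd)
  have h : IsAlgebraic (JL ℚ) (qExpand ℚ d jq) :=
    (IntermediateField.isAlgebraic_iff.mp
      (Algebra.IsAlgebraic.isAlgebraic (R := JL ℚ) (⟨qExpand ℚ d jq, hmem⟩ : FjL ℚ N)))
  exact h

/-- `ℚ (j, j_N)` is the whole field over `ℚ`. -/
theorem modularFunctionField_eq_full : modularFunctionField N = modularFunctionFieldFull N := by
  refine le_antisymm (modularFunctionField_le_full N) fun x hx => ?_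
  have htop := adjoin_jNFjL_eq_top (L := ℚ) N (Rat.castHom ℂ)
  have hx' : x ∈ FjL ℚ N := (mem_extendScalars (JL_le ℚ N)).mpr hx
  have h1 : (⟨x, hx'⟩ : FjL ℚ N)
      ∈ IntermediateField.adjoin (JL ℚ) ({jNFjL ℚ N} : Set (FjL ℚ N)) := by
    rw [htop]; exact mem_top
  have h2 : x ∈ (IntermediateField.adjoin (JL ℚ) ({jNFjL ℚ N} : Set (FjL ℚ N))).map (FjL ℚ N).val :=
    ⟨_, h1, rfl⟩
  rw [adjoin_map, Set.image_singleton] at h2
  clear hx hx' h1
  induction h2 using IntermediateField.adjoin_induction with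
  | mem y hy =>
    rw [Set.mem_singleton_iff.mp hy, modularFunctionField]
    exact subset_adjoin ℚ _ (Set.mem_insert_of_mem _ (by
      show qScale ℚ N (jqModC ℚ) = qExpand ℚ N jq
      rw [qScale_eq, jqModC_rat]))
  | algebraMap c =>
    refine adjoin_jq_le N ?_
    rw [← jqModC_rat]
    exact c.2
  | add u v _ _ hu hv => exact add_mem hu hv
  | inv u _ hu => exact inv_mem hu
  | mul u v _ _ hu hv => exact mul_mem hu hv

/-- `j` and `j (N z)` generate all `j (d z)`, `d ∣ N`, over `ℚ`. -/
theorem functionFieldGeneration_all : FunctionFieldGeneration N := by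
  intro d hd hne
  have := hne
  exact (modularFunctionField_eq_full N).ge (jqd_mem_full N hd)

variable {N}

/-- The first degeneracy map over `ℚ̄` has degree `ℓ + 1`, or `ℓ` if `ℓ ∣ N`. -/
theorem finrankAlong_alphaBar {ℓ : ℕ} [NeZero ℓ] (hℓ : ℓ.Prime) :
    finrankAlong (AlgebraicClosure ℚ) (heckeAlphaBar (AlgebraicClosure ℚ) N ℓ)
      = if ℓ ∣ N then ℓ else ℓ + 1 :=
  finrankAlong_heckeAlphaBar N (AlgebraicClosure ℚ) ℓ iotaBar hℓ

/-- The second degeneracy map over `ℚ̄` has degree `ℓ + 1`, or `ℓ` if `ℓ ∣ N`. -/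
theorem finrankAlong_betaBar {ℓ : ℕ} [NeZero ℓ] (hℓ : ℓ.Prime) :
    finrankAlong (AlgebraicClosure ℚ) (heckeBetaBar (AlgebraicClosure ℚ) N ℓ)
      = if ℓ ∣ N then ℓ else ℓ + 1 :=
  finrankAlong_heckeBetaBar N (AlgebraicClosure ℚ) ℓ iotaBar hℓ

end FLTAgent.ModularCosets
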